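import Fermat.Agent.ALCoh.Ops

/-!
# Commutation with Hecke operators, and identities
-/

set_option autoImplicit false

open Matrix.SpecialLinearGroup
open scoped MatrixGroups
open Fermat.Agent.AL

namespace Fermat.Agent.ALCoh

noncomputable section

variable {N M Q l q : ℕ} {A : Type*} [AddCommGroup A]

lemma coe_mul_inv_mul {Γ : Subgroup SL(2, ℤ)} (g h : Γ) (X : M2) :
    (((g * h⁻¹ : Γ) : SL(2, ℤ)) : M2) * (((h : SL(2, ℤ)) : M2) * X) =
      ((g : SL(2, ℤ)) : M2) * X := by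
  rw [← Matrix.mul_assoc, ← Matrix.SpecialLinearGroup.coe_mul, ← Subgroup.coe_mul,
    inv_mul_cancel_right]

/-- General commutation with `T_ℓ`. -/
theorem op_T_comm {ι : Type*} [Fintype ι] {rep : ι → M2} (hF : Fam (GG N) (GG M) rep)
    (hl : l.Prime) (hlN : ¬ l ∣ N) (hlM : ¬ l ∣ M) {D : ℤ} (hD : ∀ i, (rep i).det = D)
    (hlD : ¬ (l : ℤ) ∣ D) {S : Set M2} (hS : Stab l S) (hrep : ∀ i, rep i ∈ S)
    (hcov : ∀ B ∈ S, ∃ i, ∃ γ : GG N, B = ((γ : SL(2, ℤ)) : M2) * rep i)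
    (hinj : ∀ i j, ∀ γ : GG N, rep i = ((γ : SL(2, ℤ)) : M2) * rep j → i = j)
    (φ : Additive (GG N) →+ A) :
    hF.op A ((famT hl hlN).op A φ) = (famT hl hlM).op A (hF.op A φ) := by
  have hl0 := hl.ne_zero
  have hD0 : D ≠ 0 := fun h => hlD (h ▸ dvd_zero _)
  have hcoN : IsCoprime (N : ℤ) (l : ℤ) := isCoprime_of_not_dvd hl hlN
  have hpl := Nat.prime_iff_prime_int.mp hl
  -- choose decompositions
  have hex : ∀ z : Option (Fin l) × ι, ∃ z' : ι × Option (Fin l), ∃ γ : GG N,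
      dl l z.1 * rep z.2 = ((γ : SL(2, ℤ)) : M2) * (rep z'.1 * dl l z'.2) := by
    rintro ⟨x, i⟩
    obtain ⟨y, B, hB⟩ := exists_dl_mul hl (rep i) x
    obtain ⟨j, γ, hγ⟩ := hcov B (hS _ (hrep i) _ _ _ hB)
    exact ⟨(j, y), γ, by rw [hB, hγ, Matrix.mul_assoc]⟩
  choose Φ γ hΦ using hex
  have hinj' : Function.Injective Φ := by
    intro z w hzw
    have h1 := hΦ z
    have h2 := hΦ w
    rw [← hzw] at h2
    have h3 : dl l z.1 * rep z.2 = (((γ z * (γ w)⁻¹ : GG N) : SL(2, ℤ)) : M2) * (dl l w.1 * rep w.2) := by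
      rw [h1, h2, coe_mul_inv_mul]
    -- the matrix `C = rep z.2 * adj (rep w.2)` is divisible by `D`
    have h4 : dl l z.1 * (rep z.2 * (rep w.2).adjugate) =
        D • ((((γ z * (γ w)⁻¹ : GG N) : SL(2, ℤ)) : M2) * dl l w.1) := by
      rw [← Matrix.mul_assoc, h3, Matrix.mul_assoc, Matrix.mul_assoc, Matrix.mul_adjugate, hD]
      simp only [Matrix.mul_smul, Matrix.mul_one]
    have h5 : (l : ℤ) • (rep z.2 * (rep w.2).adjugate) =
        D • ((dl l z.1).adjugate * ((((γ z * (γ w)⁻¹ : GG N) : SL(2, ℤ)) : M2) * dl l w.1)) := by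
      rw [← Matrix.mul_smul (dl l z.1).adjugate D, ← h4, ← Matrix.mul_assoc, Matrix.adjugate_mul,
        det_dl, Matrix.smul_mul, Matrix.one_mul]
    have hco : IsCoprime (l : ℤ) D := hpl.coprime_iff_not_dvd.mpr hlD
    obtain ⟨u, v, huv⟩ := hco
    set X := rep z.2 * (rep w.2).adjugate with hX
    set Y := (dl l z.1).adjugate * ((((γ z * (γ w)⁻¹ : GG N) : SL(2, ℤ)) : M2) * dl l w.1) with hY
    have h6 : X = D • (u • Y + v • X) := by
      have : X = (u * l + v * D) • X := by rw [huv, one_smul]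
      rw [add_smul, mul_smul, h5] at this
      rw [smul_add, smul_comm D u Y, smul_comm D v X, ← mul_smul v D X]
      exact this
    set C := u • Y + v • X with hC
    have h7 : rep z.2 = C * rep w.2 := by
      refine smul_right_injective M2 hD0 ?_
      change D • rep z.2 = D • (C * rep w.2)
      rw [← Matrix.smul_mul, ← h6, hX, Matrix.mul_assoc, Matrix.adjugate_mul, hD, Matrix.mul_smul,
        Matrix.mul_one]
    have h8 : dl l z.1 * C = (((γ z * (γ w)⁻¹ : GG N) : SL(2, ℤ)) : M2) * dl l w.1 := by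
      refine smul_right_injective M2 hD0 ?_
      change D • (dl l z.1 * C) = D • _
      rw [← Matrix.mul_smul, ← h6, h4]
    have hdet : C.det = 1 := by
      rw [← det_eq_of_dl_mul hl0 h8]
      exact det_coe' _
    have hcN : (N : ℤ) ∣ C 1 0 := (dvd_c h8 hcoN).mp (dvd_of_mem (γ z * (γ w)⁻¹).2)
    have h9 : z.2 = w.2 := hinj _ _ (mkG C hdet hcN) h7
    have h10 : C = 1 := by
      rw [h9] at h7
      refine mul_right_cancel_det (C := rep w.2) (by rw [hD]; exact hD0) ?_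
      rw [← h7, Matrix.one_mul]
    rw [h10, Matrix.mul_one] at h8
    exact Prod.ext (dl_eq_of hl h8) h9
  have hbij : Function.Bijective Φ := by
    rw [Fintype.bijective_iff_injective_and_card]
    exact ⟨hinj', by rw [Fintype.card_prod, Fintype.card_prod, mul_comm]⟩
  rw [Fam.op_op, Fam.op_op]
  exact DFunLike.congr_fun (Fam.op_eq' _ _ (Equiv.ofBijective Φ hbij)
    fun z => ⟨γ z, hΦ z⟩) φ

section comm

variable (hl : l.Prime)

/-- restriction commutes with `T_ℓ` -/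
theorem res_T_comm (hMN : M ∣ N) (hlM : ¬ l ∣ M) (hlN : ¬ l ∣ N) (φ : Additive (GG M) →+ A) :
    (famRes hMN).op A ((famT hl hlM).op A φ) = (famT hl hlN).op A ((famRes hMN).op A φ) := by
  refine op_T_comm (D := 1) _ hl hlM hlN (fun _ => by simp) ?_
    (stab_WW (D := 1) (Q := 1) (R := M) (S := 1) hl.ne_zero (one_dvd _) (one_dvd _)
      (isCoprime_of_not_dvd hl hlM)) (fun _ => ⟨by simp, by simp, by simp, by simp⟩)
    (fun B hB => ⟨(), mkG B hB.1 hB.2.2.1, by simp⟩) (fun _ _ _ _ => rfl) φ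
  exact fun h => (Nat.prime_iff_prime_int.mp hl).not_isUnit (isUnit_of_dvd_one h)

/-- the second degeneracy map commutes with `T_ℓ` -/
theorem resq_T_comm (hq : q ≠ 0) (hMN : M * q ∣ N) (hlM : ¬ l ∣ M) (hlN : ¬ l ∣ N)
    (φ : Additive (GG M) →+ A) (hlq : ¬ l ∣ q) :
    (famResq hq hMN).op A ((famT hl hlM).op A φ) =
      (famT hl hlN).op A ((famResq hq hMN).op A φ) := by
  have hqZ : (q : ℤ) ≠ 0 := by exact_mod_cast hq
  refine op_T_comm (D := q) _ hl hlM hlN (fun _ => by simp [Matrix.det_fin_two_of]) ?_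
    (stab_WW (D := q) (Q := q) (R := q * M) (S := 1) hl.ne_zero (dvd_mul_right _ _) (one_dvd _)
      ?_) (fun _ => ⟨by simp [Matrix.det_fin_two_of], by simp, by simp, by simp⟩)
    (fun B hB => ?_) (fun _ _ _ _ => rfl) φ
  · exact fun h => hlq (Int.natCast_dvd_natCast.mp h)
  · exact (isCoprime_of_not_dvd hl hlq).mul_left (isCoprime_of_not_dvd hl hlM)
  · obtain ⟨h1, ⟨a, ha⟩, ⟨c, hc⟩, -⟩ := hB
    rw [Matrix.det_fin_two, ha, hc] at h1
    refine ⟨(), mkG !![a, B 0 1; M * c, B 1 1] ?_ ?_, ?_⟩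
    · rw [Matrix.det_fin_two_of]
      exact mul_left_cancel₀ hqZ (by linear_combination h1)
    · simp
    · rw [coe_mkG]
      apply mat_ext <;> simp [Matrix.mul_apply, Fin.sum_univ_two]
      · rw [ha]; ring
      · rw [hc]; ring

/-- Atkin–Lehner operators commute with `T_ℓ` -/
theorem W_T_comm (hN : Q ∣ N) (hQ : Q ≠ 0) {B : M2} (hB : B ∈ WS N Q) (hlN : ¬ l ∣ N)
    (φ : Additive (GG N) →+ A) :
    (famW hN hQ hB).op A ((famT hl hlN).op A φ) = (famT hl hlN).op A ((famW hN hQ hB).op A φ) := by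
  have hQN : (Q : ℤ) ∣ N := Int.natCast_dvd_natCast.mpr hN
  refine op_T_comm (D := Q) _ hl hlN hlN (fun _ => hB.1) ?_
    (stab_WW (D := Q) (Q := Q) (R := N) (S := Q) hl.ne_zero hQN hQN
      (isCoprime_of_not_dvd hl hlN)) (fun _ => hB)
    (fun C hC => ?_) (fun _ _ _ _ => rfl) φ
  · exact fun h => hlN ((Int.natCast_dvd_natCast.mp h).trans hN)
  · obtain ⟨γ, h1, h2, h3⟩ := WS_mul_adj hN hC hB hQ
    exact ⟨(), mkG γ h1 h2, h3⟩

/-- transfers commute with `T_ℓ` -/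
theorem tr_T_comm {ι : Type*} [Fintype ι] {r : ι → SL(2, ℤ)} (hr : IsReps N M r)
    (hlN : ¬ l ∣ N) (hlM : ¬ l ∣ M) (φ : Additive (GG N) →+ A) :
    (famTr hr).op A ((famT hl hlN).op A φ) = (famT hl hlM).op A ((famTr hr).op A φ) := by
  refine op_T_comm (D := 1) _ hl hlN hlM (fun _ => det_coe' _) ?_
    (stab_WW (D := 1) (Q := 1) (R := M) (S := 1) hl.ne_zero (one_dvd _) (one_dvd _)
      (isCoprime_of_not_dvd hl hlM))
    (fun i => ⟨det_coe' _, one_dvd _, dvd_of_mem (hr.mem i), one_dvd _⟩)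
    (fun B hB => ?_) (fun i j γ h => ?_) φ
  · exact fun h => (Nat.prime_iff_prime_int.mp hl).not_isUnit (isUnit_of_dvd_one h)
  · obtain ⟨i, hi⟩ := hr.surj (mkSL B hB.1) (mkSL_mem hB.1 hB.2.2.1)
    exact ⟨i, ⟨_, hi⟩, by
      rw [← Matrix.SpecialLinearGroup.coe_mul, inv_mul_cancel_right, coe_mkSL]⟩
  · rw [← Matrix.SpecialLinearGroup.coe_mul] at h
    apply hr.inj i j
    have h1 : r i = (γ : SL(2, ℤ)) * r j := Subtype.ext h
    rw [h1, mul_inv_cancel_right]
    exact γ.2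

/-- the level lowering `U_q` commutes with `T_ℓ` -/
theorem Ulow_T_comm (hq : q.Prime) (hqM : q ∣ M) (hlN : ¬ l ∣ M * q) (hlM : ¬ l ∣ M)
    (φ : Additive (GG (M * q)) →+ A) :
    (famUlow hq hqM).op A ((famT hl hlN).op A φ) =
      (famT hl hlM).op A ((famUlow hq hqM).op A φ) := by
  have hqZ : (q : ℤ) ≠ 0 := by exact_mod_cast hq.ne_zero
  have hlq : ¬ l ∣ q := fun h => hlN (h.trans (dvd_mul_left _ _))
  have hpp := Nat.prime_iff_prime_int.mp hq
  refine op_T_comm (D := q) _ hl hlN hlM (fun _ => det_dl _) ?_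
    (stab_WW (D := q) (Q := 1) (R := q * M) (S := q) hl.ne_zero (one_dvd _) (dvd_mul_right _ _)
      ?_) (fun i => ⟨det_dl _, one_dvd _, by simp, by simp [dl]⟩)
    (fun B hB => ?_) (fun i j g h => Option.some_injective _ (dl_eq_of hq h)) φ
  · exact fun h => hlq (Int.natCast_dvd_natCast.mp h)
  · exact (isCoprime_of_not_dvd hl hlq).mul_left (isCoprime_of_not_dvd hl hlM)
  · obtain ⟨h1, -, ⟨c, hc⟩, ⟨d, hd⟩⟩ := hB
    rw [Matrix.det_fin_two, hd, hc] at h1
    have h2 : B 0 0 * d - B 0 1 * (M * c) = 1 := mul_left_cancel₀ hqZ (by linear_combination h1)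
    have hqa : ¬ (q : ℤ) ∣ B 0 0 := by
      rintro ⟨a, ha⟩
      obtain ⟨m, hm⟩ := Int.natCast_dvd_natCast.mpr hqM
      have : (q : ℤ) ∣ 1 := ⟨a * d - B 0 1 * (m * c), by
        rw [ha, hm] at h2; linear_combination -h2⟩
      exact hpp.not_isUnit (isUnit_of_dvd_one this)
    obtain ⟨j, e, hj⟩ := exists_fin_solve hq hqa (B 0 1)
    refine ⟨j, mkG !![B 0 0, e; q * M * c, d - M * c * j] ?_ ?_, ?_⟩
    · rw [Matrix.det_fin_two_of]
      linear_combination h2 + (M * c : ℤ) * hj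
    · simp only [Matrix.of_apply, Matrix.cons_val', Matrix.cons_val_zero, Matrix.cons_val_one,
        Matrix.cons_val_fin_one]
      exact ⟨c, by push_cast; ring⟩
    · rw [coe_mkG]
      apply mat_ext <;> simp [dl, Matrix.mul_apply, Fin.sum_univ_two]
      · linear_combination hj
      · rw [hc]
      · rw [hd]; ring

end comm

end

end Fermat.Agent.ALCoh
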