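import Fermat.Agent.S22
import Fermat.Agent.S23
import Fermat.Agent.Eigen.Basic

/-!
# Every character of the Hecke algebra has an eigenform
-/

set_option autoImplicit false

open TensorProduct ModularFormClass CuspForm

namespace Fermat.Agent.ALCoh

noncomputable section

/-- eigenvectors of a faithful module over an artinian algebra -/
theorem exists_eigenvector_of_char {A V : Type*} [CommRing A] [Algebra ℂ A] [FiniteDimensional ℂ A]
    [AddCommGroup V] [Module A V] [Module ℂ V] [IsScalarTower ℂ A V] [FiniteDimensional ℂ V]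
    (hf : ∀ a : A, (∀ v : V, a • v = 0) → a = 0) (θ : A →ₐ[ℂ] ℂ) :
    ∃ v : V, v ≠ 0 ∧ ∀ a : A, a • v = θ a • v := by
  have : IsArtinianRing A := isArtinian_of_tower ℂ inferInstance
  have : IsNoetherianRing A := inferInstance
  have : Module.Finite A V := Module.Finite.of_restrictScalars_finite ℂ A V
  have hann : Module.annihilator A V = ⊥ := by
    rw [eq_bot_iff]
    intro a ha
    rw [Module.mem_annihilator] at ha
    rw [Ideal.mem_bot]
    exact hf a ha
  set 𝔪 : Ideal A := RingHom.ker θ with h𝔪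
  have hprime : 𝔪.IsPrime := RingHom.ker_isPrime _
  have hmin : 𝔪 ∈ (Module.annihilator A V).minimalPrimes := by
    rw [hann]
    obtain ⟨𝔭, h𝔭, h𝔭𝔪⟩ := Ideal.exists_minimalPrimes_le (I := (⊥ : Ideal A)) (J := 𝔪) bot_le
    have h1 : 𝔭.IsPrime := h𝔭.1.1
    have h2 : 𝔭.IsMaximal := IsArtinianRing.isMaximal_of_isPrime 𝔭
    rwa [h2.eq_of_le hprime.ne_top h𝔭𝔪] at h𝔭
  have hass := Module.associatedPrimes.minimalPrimes_annihilator_subset_associatedPrimes A V hmin
  rw [AssociatedPrimes.mem_iff, isAssociatedPrime_iff] at hass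
  obtain ⟨-, x, hx⟩ := hass
  have hx' : ∀ t : A, t ∈ 𝔪 ↔ t • x = 0 := by
    intro t
    rw [hx, Submodule.mem_colon_singleton, Submodule.mem_bot]
  refine ⟨x, ?_, fun a => ?_⟩
  · rintro rfl
    exact hprime.ne_top (by rw [Ideal.eq_top_iff_one, hx', smul_zero])
  · have h1 : a - algebraMap ℂ A (θ a) ∈ 𝔪 := by
      rw [h𝔪, RingHom.mem_ker, map_sub, AlgHom.commutes]
      simp
    rw [hx', sub_smul, sub_eq_zero] at h1
    rw [h1, algebraMap_smul]

theorem exists_eigenvector_of_char' {A V : Type*} [CommRing A] [Algebra ℂ A]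
    [FiniteDimensional ℂ A] [AddCommGroup V] [Module ℂ V] [FiniteDimensional ℂ V]
    (ρ : A →ₐ[ℂ] Module.End ℂ V) (hf : ∀ a : A, ρ a = 0 → a = 0) (θ : A →ₐ[ℂ] ℂ) :
    ∃ v : V, v ≠ 0 ∧ ∀ a : A, ρ a v = θ a • v := by
  let _ : Module A V := Module.compHom V (ρ : A →+* Module.End ℂ V)
  have hsm : ∀ (a : A) (f : V), a • f = ρ a f := fun _ _ => rfl
  have : IsScalarTower ℂ A V := ⟨fun c a f => by rw [hsm, hsm, map_smul]; rfl⟩
  exact exists_eigenvector_of_char (A := A) (V := V)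
    (fun a ha => hf a (LinearMap.ext fun f => ha f)) θ

/-- common denominators for finitely many rationals -/
lemma exists_common_den {ι : Type*} [Fintype ι] (c : ι → ℚ) :
    ∃ (d : ℤ) (m : ι → ℤ), d ≠ 0 ∧ ∀ i, (d : ℚ) * c i = m i := by
  classical
  refine ⟨∏ i, ((c i).den : ℤ), fun i => (∏ j ∈ Finset.univ.erase i, ((c j).den : ℤ)) * (c i).num,
    ?_, fun i => ?_⟩
  · rw [Finset.prod_ne_zero_iff]
    intro i _
    exact_mod_cast (c i).den_nz
  · rw [← Finset.mul_prod_erase Finset.univ (fun i => ((c i).den : ℤ)) (Finset.mem_univ i)]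
    push_cast
    have h1 : ((c i).den : ℚ) * c i = (c i).num := by
      rw [mul_comm]; exact Rat.mul_den_eq_num (c i)
    calc ((c i).den : ℚ) * (∏ j ∈ Finset.univ.erase i, ((c j).den : ℚ)) * c i
        = (∏ j ∈ Finset.univ.erase i, ((c j).den : ℚ)) * (((c i).den : ℚ) * c i) := by ring
      _ = _ := by rw [h1]

variable {N : ℕ} [NeZero N] {S : Set ℕ}

instance finite_hecke : Module.Finite ℤ (heckeAlgebra N 2 S) := Fermat.Agent.S22.result N 2 S

instance free_hecke : Module.Free ℤ (heckeAlgebra N 2 S) :=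
  Module.free_of_finite_type_torsion_free'

local notation "VV" N => CuspForm (CongruenceSubgroup.Gamma0 N) 2

variable (N S) in
/-- the complex Hecke algebra acts -/
def rhoC : ℂ ⊗[ℤ] (heckeAlgebra N 2 S) →ₐ[ℂ] Module.End ℂ (VV N) :=
  Algebra.TensorProduct.lift (Algebra.ofId ℂ _) (heckeAlgebra N 2 S).val
    (fun c t => (Algebra.commute_algebraMap_left c _ :
      Commute ((Algebra.ofId ℂ (Module.End ℂ (VV N))) c) ((heckeAlgebra N 2 S).val t)))

lemma rhoC_tmul (c : ℂ) (t : heckeAlgebra N 2 S) (f : VV N) :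
    rhoC N S (c ⊗ₜ t) f = c • (t : Module.End ℂ (VV N)) f := by
  have h : rhoC N S (c ⊗ₜ t) = (Algebra.ofId ℂ (Module.End ℂ (VV N))) c *
      (heckeAlgebra N 2 S).val t := Algebra.TensorProduct.lift_tmul _ _ _ _ _
  rw [h, Algebra.ofId_apply, ← Algebra.smul_def]
  rfl

lemma coeff_rhoC {ι : Type*} [Fintype ι] (c : ι → ℂ) (b : ι → heckeAlgebra N 2 S) (f : VV N)
    (n : ℕ) : qCoeff (rhoC N S (∑ i, c i ⊗ₜ b i) f) n =
      ∑ i, c i * qCoeff ((b i : Module.End ℂ (VV N)) f) n := by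
  have h1 : rhoC N S (∑ i, c i ⊗ₜ b i) f = ∑ i, c i • (b i : Module.End ℂ (VV N)) f := by
    rw [map_sum, LinearMap.sum_apply]
    exact Finset.sum_congr rfl fun i _ => rhoC_tmul _ _ _
  rw [h1, ← Fermat.Agent.Eigen.coeffLin_apply, map_sum]
  refine Finset.sum_congr rfl fun i _ => ?_
  rw [map_smul, smul_eq_mul, Fermat.Agent.Eigen.coeffLin_apply]

lemma coeff_sum_smul {ι : Type*} [Fintype ι] (m : ι → ℤ) (b : ι → heckeAlgebra N 2 S) (f : VV N)
    (n : ℕ) : qCoeff (((∑ i, m i • b i : heckeAlgebra N 2 S) : Module.End ℂ (VV N)) f) n =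
      ∑ i, (m i : ℂ) * qCoeff ((b i : Module.End ℂ (VV N)) f) n := by
  have h1 : ((∑ i, m i • b i : heckeAlgebra N 2 S) : Module.End ℂ (VV N)) f =
      ∑ i, (m i : ℂ) • (b i : Module.End ℂ (VV N)) f := by
    rw [AddSubmonoidClass.coe_finsetSum, LinearMap.sum_apply]
    refine Finset.sum_congr rfl fun i _ => ?_
    rw [Int.cast_smul_eq_zsmul]
    rfl
  rw [h1, ← Fermat.Agent.Eigen.coeffLin_apply, map_sum]
  refine Finset.sum_congr rfl fun i _ => ?_
  rw [map_smul, smul_eq_mul, Fermat.Agent.Eigen.coeffLin_apply]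

/-- rational functionals applied to integral relations -/
lemma rel_of_rel {ι : Type*} [Fintype ι] {c : ι → ℂ} {z : ι → ℤ} (h : ∑ i, c i * (z i : ℂ) = 0)
    (κ : ℂ →ₗ[ℚ] ℚ) {d : ℤ} {m : ι → ℤ} (hm : ∀ i, (d : ℚ) * κ (c i) = m i) :
    ∑ i, m i * z i = 0 := by
  have h4 : ∑ i, κ (c i) * (z i : ℚ) = 0 := by
    have h5 := congrArg κ h
    rw [map_sum, map_zero] at h5
    rw [← h5]
    refine Finset.sum_congr rfl fun i _ => ?_
    have h6 : c i * (z i : ℂ) = (z i : ℤ) • c i := by rw [zsmul_eq_mul, mul_comm]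
    rw [h6, map_zsmul, zsmul_eq_mul, mul_comm]
  have h7 : ∑ i, (m i : ℚ) * (z i : ℚ) = 0 := by
    have : ∑ i, (m i : ℚ) * (z i : ℚ) = d * ∑ i, κ (c i) * (z i : ℚ) := by
      rw [Finset.mul_sum]
      refine Finset.sum_congr rfl fun i _ => ?_
      rw [← hm i]; ring
    rw [this, h4, mul_zero]
  exact_mod_cast h7

lemma rhoC_injective_aux {ι : Type*} [Fintype ι] {c : ι → ℂ} {b : ι → heckeAlgebra N 2 S}
    (hb : LinearIndependent ℤ b) (hx : rhoC N S (∑ i, c i ⊗ₜ b i) = 0) (i : ι) : c i = 0 := by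
  rw [← Module.forall_dual_apply_eq_zero_iff ℚ]
  intro κ
  obtain ⟨d, m, hd, hm⟩ := exists_common_den (fun i => κ (c i))
  set t : heckeAlgebra N 2 S := ∑ i, m i • b i with ht
  -- `t` kills the lattice
  have key : ∀ f ∈ intLattice N 2, (t : Module.End ℂ (VV N)) f = 0 := by
    intro f hf
    apply Fermat.Agent.Eigen.eq_zero_of_forall_qCoeff_eq_zero
    intro n
    have h1 : ∀ i, ∃ z : ℤ, qCoeff ((b i : Module.End ℂ (VV N)) f) n = z := by
      intro i
      exact (Fermat.Agent.Eigen.mem_intLattice_iff _).mp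
        (mem_intLattice_of_mem_heckeAlgebra one_le_two (b i).2 hf) n
    choose z hz using h1
    have h2 : ∑ i, c i * (z i : ℂ) = 0 := by
      have h3 := coeff_rhoC c b f n
      rw [hx, LinearMap.zero_apply, Fermat.Agent.Eigen.qCoeff_zero] at h3
      rw [h3]
      exact Finset.sum_congr rfl fun i _ => by rw [hz]
    rw [ht, coeff_sum_smul]
    have h8 := rel_of_rel h2 κ hm
    simp only [hz]
    exact_mod_cast h8
  have ht0 : t = 0 := by
    apply Subtype.ext
    refine LinearMap.ext_on (s := (intLattice N 2 : Set (VV N)))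
      (Fermat.Agent.S23.result N) fun f hf => ?_
    rw [key f hf]; rfl
  rw [Fintype.linearIndependent_iff] at hb
  have hmi := hb m (by rw [← ht, ht0]) i
  have h11 := hm i
  rw [hmi, Int.cast_zero] at h11
  exact (mul_eq_zero.mp h11).resolve_left (by exact_mod_cast hd)

lemma rhoC_injective (x : ℂ ⊗[ℤ] (heckeAlgebra N 2 S)) (hx : rhoC N S x = 0) : x = 0 := by
  let b := Module.Free.chooseBasis ℤ (heckeAlgebra N 2 S)
  let bC := Algebra.TensorProduct.basis ℂ b
  have hsum : x = ∑ i, (bC.repr x i) ⊗ₜ[ℤ] (b i) := by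
    conv_lhs => rw [← bC.sum_repr x]
    refine Finset.sum_congr rfl fun i _ => ?_
    rw [Algebra.TensorProduct.basis_apply, TensorProduct.smul_tmul', smul_eq_mul, mul_one]
  rw [hsum] at hx
  have h := rhoC_injective_aux b.linearIndependent hx
  rw [hsum]
  exact Finset.sum_eq_zero fun i _ => by rw [h i, TensorProduct.zero_tmul]

/-- Every character of the Hecke algebra comes from an eigenform. -/
theorem exists_eigenform_of_char (θ : heckeAlgebra N 2 S →+* ℂ) :
    ∃ f : VV N, f ≠ 0 ∧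
      ∀ t : heckeAlgebra N 2 S, (t : Module.End ℂ (VV N)) f = θ t • f := by
  have hfd : FiniteDimensional ℂ (VV N) := Fermat.Agent.Eigen.finiteDimensional_cuspForm N 2
  let θC : ℂ ⊗[ℤ] (heckeAlgebra N 2 S) →ₐ[ℂ] ℂ :=
    Algebra.TensorProduct.lift (Algebra.ofId ℂ ℂ) (θ.toIntAlgHom) (fun c t => Commute.all _ _)
  obtain ⟨v, hv, h⟩ := exists_eigenvector_of_char' (rhoC N S) rhoC_injective θC
  refine ⟨v, hv, fun t => ?_⟩
  have h1 := h ((1 : ℂ) ⊗ₜ t)
  rw [rhoC_tmul, one_smul] at h1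
  rw [h1]
  congr 1
  simp [θC]

end

end Fermat.Agent.ALCoh
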