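import Fermat.Agent.AL.Trace

/-!
# Double coset operators on homomorphisms of subgroups of `SL(2, ℤ)`
-/

set_option autoImplicit false

open Matrix.SpecialLinearGroup
open scoped MatrixGroups
open Fermat.Agent.AL

namespace Fermat.Agent.ALCoh

noncomputable section

/-- Transport data. -/
def Tr {ι : Type*} (Γ : Subgroup SL(2, ℤ)) (rep : ι → M2) (γ : SL(2, ℤ)) (σ : Equiv.Perm ι)
    (g : ι → Γ) : Prop :=
  ∀ x, rep x * (γ : M2) = ((g x : SL(2, ℤ)) : M2) * rep (σ x)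

/-- Families of matrices giving operators `Hom(Γ, A) → Hom(Γ', A)`. -/
structure Fam {ι : Type*} (Γ Γ' : Subgroup SL(2, ℤ)) (rep : ι → M2) : Prop where
  det : ∀ x, (rep x).det ≠ 0
  tr : ∀ γ ∈ Γ', ∃ σ g, Tr Γ rep γ σ g

lemma mul_right_cancel_det {A B C : M2} (hC : C.det ≠ 0) (h : A * C = B * C) : A = B := by
  have h1 := congrArg (fun X => X * C.adjugate) h
  simp only [Matrix.mul_assoc, Matrix.mul_adjugate] at h1
  rw [Matrix.mul_smul, Matrix.mul_smul, Matrix.mul_one, Matrix.mul_one] at h1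
  exact smul_right_injective M2 hC h1

lemma mul_left_cancel_det {A B C : M2} (hC : C.det ≠ 0) (h : C * A = C * B) : A = B := by
  have h1 := congrArg (fun X => C.adjugate * X) h
  simp only [← Matrix.mul_assoc, Matrix.adjugate_mul] at h1
  rw [Matrix.smul_mul, Matrix.smul_mul, Matrix.one_mul, Matrix.one_mul] at h1
  exact smul_right_injective M2 hC h1

section indep

variable {ι κ : Type*} [Fintype ι] [Fintype κ] {Γ Γ' : Subgroup SL(2, ℤ)} {rep : ι → M2}
  {rep' : κ → M2} {A : Type*} [AddCommGroup A]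

omit [Fintype ι] in
/-- A potential for the comparison of equivalent representatives. -/
lemma exists_potential (hdet : ∀ x, (rep x).det ≠ 0) (φ : Additive Γ →+ A) :
    ∃ u : ι → A, ∀ (x y : ι) (h : Γ), rep x = ((h : SL(2, ℤ)) : M2) * rep y →
      φ (Additive.ofMul h) = u x - u y := by
  classical
  let s : Setoid ι :=
    { r := fun x y => ∃ h : Γ, rep x = ((h : SL(2, ℤ)) : M2) * rep y
      iseqv :=
        { refl := fun x => ⟨1, by simp⟩
          symm := fun {x y} ⟨h, hh⟩ => ⟨h⁻¹, by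
            rw [hh, ← Matrix.mul_assoc, ← Matrix.SpecialLinearGroup.coe_mul, ← Subgroup.coe_mul,
              inv_mul_cancel]
            simp⟩
          trans := fun {x y z} ⟨h, hh⟩ ⟨h', hh'⟩ => ⟨h * h', by
            rw [hh, hh', Subgroup.coe_mul, Matrix.SpecialLinearGroup.coe_mul, Matrix.mul_assoc]⟩ } }
  have hb : ∀ x : ι, ∃ h : Γ, rep x = ((h : SL(2, ℤ)) : M2) * rep (Quotient.out (Quotient.mk s x)) :=
    fun x => Quotient.exact (Quotient.out_eq (Quotient.mk s x)).symm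
  choose b hb using hb
  refine ⟨fun x => φ (Additive.ofMul (b x)), fun x y h hh => ?_⟩
  have hxy : Quotient.mk s x = Quotient.mk s y := Quotient.sound ⟨h, hh⟩
  have h1 : b x = h * b y := by
    apply Subtype.ext
    apply Subtype.ext
    refine mul_right_cancel_det (hdet (Quotient.out (Quotient.mk s x))) ?_
    rw [← hb x, hh, Subgroup.coe_mul, Matrix.SpecialLinearGroup.coe_mul, Matrix.mul_assoc]
    congr 1
    rw [hxy]
    exact hb y
  change φ (Additive.ofMul h) = φ (Additive.ofMul (b x)) - φ (Additive.ofMul (b y))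
  rw [h1, ofMul_mul, map_add, add_sub_cancel_right]

/-- Independence of all choices. -/
lemma sum_eq_of_tr (hdet : ∀ x, (rep x).det ≠ 0) (φ : Additive Γ →+ A) {γ : SL(2, ℤ)}
    {σ σ' : Equiv.Perm ι} {g g' : ι → Γ} (h : Tr Γ rep γ σ g) (h' : Tr Γ rep γ σ' g') :
    ∑ x, φ (Additive.ofMul (g x)) = ∑ x, φ (Additive.ofMul (g' x)) := by
  obtain ⟨u, hu⟩ := exists_potential hdet φ
  have h1 : ∀ x, φ (Additive.ofMul (g' x)) - φ (Additive.ofMul (g x)) = u (σ x) - u (σ' x) := by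
    intro x
    have h2 : rep (σ x) = ((((g x)⁻¹ * g' x : Γ) : SL(2, ℤ)) : M2) * rep (σ' x) := by
      refine mul_left_cancel_det (C := ((g x : SL(2, ℤ)) : M2)) ?_ ?_
      · rw [(g x : SL(2, ℤ)).det_coe]; exact one_ne_zero
      · rw [← h x, h' x, ← Matrix.mul_assoc, ← Matrix.SpecialLinearGroup.coe_mul,
          ← Subgroup.coe_mul, mul_inv_cancel_left]
    have h3 := hu _ _ _ h2
    rw [ofMul_mul, ofMul_inv, map_add, map_neg] at h3
    rw [← h3]
    abel
  have h4 : ∑ x, (φ (Additive.ofMul (g' x)) - φ (Additive.ofMul (g x))) = 0 := by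
    simp_rw [h1]
    rw [Finset.sum_sub_distrib, Equiv.sum_comp σ u, Equiv.sum_comp σ' u, sub_self]
  rw [Finset.sum_sub_distrib, sub_eq_zero] at h4
  exact h4.symm

omit [Fintype ι] [Fintype κ] in
/-- Transport of transport data. -/
lemma Tr.transport {γ : SL(2, ℤ)} {σ' : Equiv.Perm κ} {g' : κ → Γ} (h' : Tr Γ rep' γ σ' g')
    (e : ι ≃ κ) {c c' : ℤ} (hc : c ≠ 0) {δ : ι → Γ} (hδ : ∀ x,
      c • rep x = c' • (((δ x : SL(2, ℤ)) : M2) * rep' (e x))) :
    Tr Γ rep γ (e.trans (σ'.trans e.symm)) (fun x =>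
      δ x * g' (e x) * (δ (e.symm (σ' (e x))))⁻¹) := by
  intro x
  have h1 := hδ (e.symm (σ' (e x)))
  rw [Equiv.apply_symm_apply] at h1
  refine smul_right_injective M2 hc ?_
  change c • (rep x * (γ : M2)) = c • (_ * _)
  have h2 : ((((δ (e.symm (σ' (e x))))⁻¹ : Γ) : SL(2, ℤ)) : M2) *
      (c • rep (e.symm (σ' (e x)))) = c' • rep' (σ' (e x)) := by
    rw [h1, Matrix.mul_smul, ← Matrix.mul_assoc, ← Matrix.SpecialLinearGroup.coe_mul,
      ← Subgroup.coe_mul, inv_mul_cancel]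
    simp
  rw [← Matrix.smul_mul, hδ x, Matrix.smul_mul, Matrix.mul_assoc, h' (e x)]
  simp only [Equiv.trans_apply, Subgroup.coe_mul, Matrix.SpecialLinearGroup.coe_mul]
  rw [← Matrix.mul_smul, ← Matrix.mul_smul, ← h2]
  simp only [Matrix.mul_assoc, Matrix.mul_smul]

/-- Comparison of two families. -/
lemma sum_eq_of_tr_of_equiv (hdet : ∀ x, (rep x).det ≠ 0)
    (φ : Additive Γ →+ A) {γ : SL(2, ℤ)}
    {σ : Equiv.Perm ι} {g : ι → Γ} (h : Tr Γ rep γ σ g)
    {σ' : Equiv.Perm κ} {g' : κ → Γ} (h' : Tr Γ rep' γ σ' g')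
    (e : ι ≃ κ) {c c' : ℤ} (hc : c ≠ 0) (he : ∀ x, ∃ δ : Γ,
      c • rep x = c' • (((δ : SL(2, ℤ)) : M2) * rep' (e x))) :
    ∑ x, φ (Additive.ofMul (g x)) = ∑ x, φ (Additive.ofMul (g' x)) := by
  choose δ hδ using he
  -- transported data
  rw [sum_eq_of_tr hdet φ h (h'.transport e hc hδ)]
  simp only [ofMul_mul, ofMul_inv, map_add, map_neg, Finset.sum_add_distrib,
    Finset.sum_neg_distrib]
  rw [Equiv.sum_comp e (fun y => φ (Additive.ofMul (g' y)))]
  have h3 : ∑ x, φ (Additive.ofMul (δ (e.symm (σ' (e x))))) = ∑ x, φ (Additive.ofMul (δ x)) :=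
    Equiv.sum_comp (e.trans (σ'.trans e.symm)) (fun x => φ (Additive.ofMul (δ x)))
  rw [h3]
  abel

end indep

variable {ι κ : Type*} [Fintype ι] [Fintype κ] {Γ Γ' Γ'' : Subgroup SL(2, ℤ)} {rep : ι → M2}
  {rep' : κ → M2}

omit [Fintype ι] in
lemma Tr.mul {γ δ : SL(2, ℤ)} {σ τ : Equiv.Perm ι}
    {g h : ι → Γ} (h1 : Tr Γ rep γ σ g) (h2 : Tr Γ rep δ τ h) :
    Tr Γ rep (γ * δ) (τ * σ) (fun x => g x * h (σ x)) := by
  intro x
  rw [Matrix.SpecialLinearGroup.coe_mul, ← Matrix.mul_assoc, h1 x, Matrix.mul_assoc, h2 (σ x),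
    ← Matrix.mul_assoc, Subgroup.coe_mul, Matrix.SpecialLinearGroup.coe_mul]
  rfl

omit [Fintype ι] in
lemma Tr.one : Tr Γ rep 1 1 (fun _ => 1) := by
  intro x
  simp

namespace Fam

/-- the permutation -/
def perm (hF : Fam Γ Γ' rep) (γ : Γ') : Equiv.Perm ι := (hF.tr γ γ.2).choose

/-- the elements -/
def elt (hF : Fam Γ Γ' rep) (γ : Γ') : ι → Γ := (hF.tr γ γ.2).choose_spec.choose

omit [Fintype ι] in
lemma tr_elt (hF : Fam Γ Γ' rep) (γ : Γ') : Tr Γ rep γ (hF.perm γ) (hF.elt γ) :=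
  (hF.tr γ γ.2).choose_spec.choose_spec

/-- The operator attached to a family. -/
def op (hF : Fam Γ Γ' rep) (A : Type*) [AddCommGroup A] :
    (Additive Γ →+ A) →+ (Additive Γ' →+ A) where
  toFun φ :=
    { toFun := fun γ => ∑ x, φ (Additive.ofMul (hF.elt (Additive.toMul γ) x))
      map_zero' := by
        rw [sum_eq_of_tr hF.det φ (hF.tr_elt _) (Tr.one : Tr Γ rep 1 1 _)]
        simp
      map_add' := fun γ δ => by
        rw [sum_eq_of_tr hF.det φ (hF.tr_elt _)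
          ((hF.tr_elt (Additive.toMul γ)).mul (hF.tr_elt (Additive.toMul δ)))]
        simp only [ofMul_mul, map_add, Finset.sum_add_distrib]
        congr 1
        exact Equiv.sum_comp (hF.perm (Additive.toMul γ))
          (fun x => φ (Additive.ofMul (hF.elt (Additive.toMul δ) x))) }
  map_zero' := by ext γ; simp
  map_add' φ ψ := by
    ext γ
    simp [Finset.sum_add_distrib]

variable {A : Type*} [AddCommGroup A]

lemma op_apply_of_tr (hF : Fam Γ Γ' rep) (φ : Additive Γ →+ A) (γ : Γ')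
    {σ : Equiv.Perm ι} {g : ι → Γ} (h : Tr Γ rep γ σ g) :
    hF.op A φ (Additive.ofMul γ) = ∑ x, φ (Additive.ofMul (g x)) :=
  sum_eq_of_tr hF.det φ (hF.tr_elt _) h

omit [Fintype ι] [Fintype κ] in
/-- transport of families -/
lemma congr (hF' : Fam Γ Γ' rep') (e : ι ≃ κ) {c c' : ℤ} (hc : c ≠ 0)
    (hc' : c' ≠ 0) (he : ∀ x, ∃ δ : Γ,
      c • rep x = c' • (((δ : SL(2, ℤ)) : M2) * rep' (e x))) : Fam Γ Γ' rep where
  det x := by
    obtain ⟨δ, hδ⟩ := he x
    have h1 := congrArg Matrix.det hδ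
    rw [Matrix.det_smul, Matrix.det_smul, Matrix.det_mul, (δ : SL(2, ℤ)).det_coe, one_mul] at h1
    intro h2
    rw [h2, mul_zero] at h1
    exact mul_ne_zero (pow_ne_zero _ hc') (hF'.det _) h1.symm
  tr γ hγ := by
    choose δ hδ using he
    obtain ⟨σ', g', h'⟩ := hF'.tr γ hγ
    exact ⟨_, _, h'.transport e hc hδ⟩

/-- comparison -/
lemma op_eq (hF : Fam Γ Γ' rep) (hF' : Fam Γ Γ' rep') (e : ι ≃ κ) {c c' : ℤ} (hc : c ≠ 0)
    (he : ∀ x, ∃ δ : Γ,
      c • rep x = c' • (((δ : SL(2, ℤ)) : M2) * rep' (e x))) : hF.op A = hF'.op A := by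
  ext φ γ
  exact sum_eq_of_tr_of_equiv hF.det φ (hF.tr_elt _) (hF'.tr_elt _) e hc he

/-- comparison -/
lemma op_eq' (hF : Fam Γ Γ' rep) (hF' : Fam Γ Γ' rep') (e : ι ≃ κ) (he : ∀ x, ∃ δ : Γ,
      rep x = ((δ : SL(2, ℤ)) : M2) * rep' (e x)) : hF.op A = hF'.op A :=
  op_eq hF hF' e (c := 1) (c' := 1) one_ne_zero (by simpa using he)

omit [Fintype ι] [Fintype κ] in
/-- product family -/
lemma mul (hF : Fam Γ Γ' rep) (hF' : Fam Γ' Γ'' rep') :
    Fam Γ Γ'' (fun z : ι × κ => rep z.1 * rep' z.2) where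
  det z := by rw [Matrix.det_mul]; exact mul_ne_zero (hF.det _) (hF'.det _)
  tr γ hγ := by
    obtain ⟨τ, h, hh⟩ := hF'.tr γ hγ
    choose σ g hg using fun y : κ => hF.tr (h y) (h y).2
    refine ⟨⟨fun z => (σ z.2 z.1, τ z.2), fun z => ((σ (τ.symm z.2)).symm z.1, τ.symm z.2),
      fun z => by simp, fun z => by simp⟩, fun z => g z.2 z.1, fun z => ?_⟩
    rw [Matrix.mul_assoc, hh z.2, ← Matrix.mul_assoc, hg z.2 z.1]
    simp only [Matrix.mul_assoc]
    rfl

/-- composition -/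
lemma op_op (hF : Fam Γ Γ' rep) (hF' : Fam Γ' Γ'' rep') (φ : Additive Γ →+ A) :
    hF'.op A (hF.op A φ) = (hF.mul hF').op A φ := by
  refine AddMonoidHom.ext fun γ => ?_
  obtain ⟨γ, rfl⟩ := Additive.ofMul.surjective γ
  have hh := hF'.tr_elt γ
  have h1 : Tr Γ (fun z : ι × κ => rep z.1 * rep' z.2) γ
      ⟨fun z => (hF.perm (hF'.elt γ z.2) z.1, hF'.perm γ z.2),
        fun z => ((hF.perm (hF'.elt γ ((hF'.perm γ).symm z.2))).symm z.1, (hF'.perm γ).symm z.2),
        fun z => by simp, fun z => by simp⟩ (fun z => hF.elt (hF'.elt γ z.2) z.1) := by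
    intro z
    change rep z.1 * rep' z.2 * _ = _
    rw [Matrix.mul_assoc, hh z.2, ← Matrix.mul_assoc, hF.tr_elt (hF'.elt γ z.2) z.1]
    simp only [Matrix.mul_assoc]
    rfl
  rw [op_apply_of_tr _ _ _ h1, Fintype.sum_prod_type_right]
  rfl

omit [Fintype ι] [Fintype κ] in
/-- disjoint union -/
lemma sum (hF : Fam Γ Γ' rep) (hF' : Fam Γ Γ' rep') : Fam Γ Γ' (Sum.elim rep rep') where
  det z := by
    cases z with
    | inl x => exact hF.det x
    | inr x => exact hF'.det x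
  tr γ hγ := by
    obtain ⟨τ, h, hh⟩ := hF'.tr γ hγ
    obtain ⟨σ, g, hg⟩ := hF.tr γ hγ
    refine ⟨Equiv.sumCongr σ τ, Sum.elim g h, fun z => ?_⟩
    cases z with
    | inl x => exact hg x
    | inr x => exact hh x

lemma op_sum (hF : Fam Γ Γ' rep) (hF' : Fam Γ Γ' rep') (φ : Additive Γ →+ A) :
    (hF.sum hF').op A φ = hF.op A φ + hF'.op A φ := by
  refine AddMonoidHom.ext fun γ => ?_
  obtain ⟨γ, rfl⟩ := Additive.ofMul.surjective γ
  have h1 : Tr Γ (Sum.elim rep rep') γ (Equiv.sumCongr (hF.perm γ) (hF'.perm γ))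
      (Sum.elim (hF.elt γ) (hF'.elt γ)) := by
    intro z
    cases z with
    | inl x => exact hF.tr_elt γ x
    | inr x => exact hF'.tr_elt γ x
  rw [op_apply_of_tr _ _ _ h1, Fintype.sum_sum_type]
  rfl

/-- naturality -/
lemma comp_op {B : Type*} [AddCommGroup B] (hF : Fam Γ Γ' rep) (u : A →+ B)
    (φ : Additive Γ →+ A) : u.comp (hF.op A φ) = hF.op B (u.comp φ) := by
  ext γ
  change u (∑ x, φ (Additive.ofMul (hF.elt γ x))) = ∑ x, u (φ (Additive.ofMul (hF.elt γ x)))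
  rw [map_sum]

omit [Fintype ι] in
/-- restriction of families -/
lemma mono (hF : Fam Γ Γ' rep) (h : Γ'' ≤ Γ') : Fam Γ Γ'' rep where
  det := hF.det
  tr γ hγ := hF.tr γ (h hγ)

omit [Fintype ι] [Fintype κ] in
/-- pieces of families -/
lemma option_none {r : Option ι → M2} (hF : Fam Γ Γ' r)
    (h : Fam Γ Γ' (fun _ : Unit => r none)) (h' : Fam Γ Γ' (fun x => r (some x))) :
    Fam Γ Γ' (Sum.elim (fun _ : Unit => r none) (fun x => r (some x))) := h.sum h'

lemma op_option {r : Option ι → M2} (hF : Fam Γ Γ' r)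
    (h : Fam Γ Γ' (fun _ : Unit => r none)) (h' : Fam Γ Γ' (fun x => r (some x)))
    (φ : Additive Γ →+ A) : hF.op A φ = h.op A φ + h'.op A φ := by
  rw [← op_sum h h']
  have e : Option ι ≃ Unit ⊕ ι :=
    (Equiv.optionEquivSumPUnit ι).trans (Equiv.sumComm ι PUnit)
  have := op_eq' (A := A) hF (h.sum h') ((Equiv.optionEquivSumPUnit ι).trans (Equiv.sumComm ι PUnit))
    (fun x => ⟨1, by cases x <;> simp⟩)
  rw [this]

/-- constant families -/
lemma op_const (hF : Fam Γ Γ rep) (h : ∀ x, ∃ δ : Γ, rep x = ((δ : SL(2, ℤ)) : M2))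
    (φ : Additive Γ →+ A) : hF.op A φ = Fintype.card ι • φ := by
  choose δ hδ using h
  refine AddMonoidHom.ext fun γ => ?_
  obtain ⟨γ, rfl⟩ := Additive.ofMul.surjective γ
  rw [op_apply_of_tr _ _ _ (σ := 1) (g := fun x => δ x * γ * (δ x)⁻¹) (fun x => by
    rw [hδ, Equiv.Perm.coe_one, id, hδ, ← Matrix.SpecialLinearGroup.coe_mul,
      ← Matrix.SpecialLinearGroup.coe_mul, ← Subgroup.coe_mul, ← Subgroup.coe_mul]
    simp)]
  simp

/-- the identity family -/
lemma one : Fam Γ Γ (fun _ : Unit => (1 : M2)) where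
  det _ := by simp
  tr γ hγ := ⟨1, fun _ => ⟨γ, hγ⟩, fun _ => by simp⟩

lemma one_op (φ : Additive Γ →+ A) : (one (Γ := Γ)).op A φ = φ := by
  refine AddMonoidHom.ext fun γ => ?_
  obtain ⟨γ, rfl⟩ := Additive.ofMul.surjective γ
  rw [op_apply_of_tr _ _ _ (σ := 1) (g := fun _ => γ) (fun _ => by simp)]
  simp

end Fam

end

end Fermat.Agent.ALCoh
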