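import Fermat.Agent.ALCoh.Comm
import Fermat.Agent.HeckeHom.Action

/-!
# Identities between degeneracy, trace, Atkin–Lehner and Hecke operators
-/

set_option autoImplicit false

open Matrix.SpecialLinearGroup
open scoped MatrixGroups
open Fermat.Agent.AL ModularCurve ModularCurve.Period

namespace Fermat.Agent.ALCoh

noncomputable section

variable {N M Q l q : ℕ} {A : Type*} [AddCommGroup A]

section reps

/-- coset representatives -/
lemma exists_isReps [NeZero N] (hMN : M ∣ N) : ∃ (n : ℕ) (r : Fin n → SL(2, ℤ)), IsReps N M r := by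
  have : NeZero M := ⟨fun h => NeZero.ne N (Nat.eq_zero_of_zero_dvd (h ▸ hMN))⟩
  have hle : GG N ≤ GG M := fun γ hγ => mem_Gamma0_iff.mpr
    ((Int.natCast_dvd_natCast.mpr hMN).trans (dvd_of_mem hγ))
  let H : Subgroup (GG M) := (GG N).subgroupOf (GG M)
  have : H.FiniteIndex := inferInstance
  have : Finite (GG M ⧸ H) := inferInstance
  obtain ⟨n, ⟨e⟩⟩ := Finite.exists_equiv_fin (GG M ⧸ H)
  refine ⟨n, fun i => (((Quotient.out (e.symm i))⁻¹ : GG M) : SL(2, ℤ)), ?_, ?_, ?_⟩
  · intro i
    exact ((Quotient.out (e.symm i))⁻¹).2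
  · intro i j hij
    apply e.symm.injective
    rw [← QuotientGroup.out_eq' (e.symm i), ← QuotientGroup.out_eq' (e.symm j),
      QuotientGroup.eq, Subgroup.mem_subgroupOf]
    simpa using hij
  · intro γ hγ
    refine ⟨e (QuotientGroup.mk (⟨γ, hγ⟩⁻¹ : GG M)), ?_⟩
    rw [Equiv.symm_apply_apply]
    have h1 : (QuotientGroup.mk (⟨γ, hγ⟩⁻¹ : GG M) : GG M ⧸ H) =
        QuotientGroup.mk (Quotient.out (QuotientGroup.mk (⟨γ, hγ⟩⁻¹ : GG M) : GG M ⧸ H)) :=
      (QuotientGroup.out_eq' _).symm
    rw [QuotientGroup.eq, Subgroup.mem_subgroupOf] at h1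
    simpa using h1

/-- the transfer `Hom(Γ₀(N), A) → Hom(Γ₀(M), A)` -/
def tr [NeZero N] (hMN : M ∣ N) (A : Type*) [AddCommGroup A] :
    (Additive (GG N) →+ A) →+ (Additive (GG M) →+ A) :=
  (famTr (exists_isReps hMN).choose_spec.choose_spec).op A

theorem tr_eq [NeZero N] (hMN : M ∣ N) {ι : Type*} [Fintype ι] {r : ι → SL(2, ℤ)}
    (hr : IsReps N M r) : tr hMN A = (famTr hr).op A :=
  famTr_op_eq (exists_isReps hMN).choose_spec.choose_spec hr

end reps

section helper9

open HeckeHom

/-- comparison with `HeckeHom.opT` -/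
theorem opT_eq [NeZero N] (hl : l.Prime) (hlN : ¬ l ∣ N) :
    HeckeHom.opT N hl hlN A = (famT hl hlN).op A := by
  have : NeZero l := ⟨hl.ne_zero⟩
  refine AddMonoidHom.ext fun φ => AddMonoidHom.ext fun γ => ?_
  obtain ⟨γ, rfl⟩ := Additive.ofMul.surjective γ
  -- the bijection between the two index sets
  have e0 : ∀ x : Option (Fin l), ∃ y : Option (ZMod l), toGL (dl l x) = repT l y := by
    intro x
    cases x with
    | none => exact ⟨none, (heckeDiagMatrix_eq_toGL hl.ne_zero).symm⟩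
    | some j =>
      refine ⟨some ((j : ℕ) : ZMod l), ?_⟩
      rw [repT_some, repU, ZMod.val_natCast_of_lt j.2]
      exact (heckeMatrix_eq_toGL hl.ne_zero j).symm
  choose e he using e0
  have hinj : Function.Injective e := by
    intro x y hxy
    have h1 := he x
    rw [hxy, ← he y] at h1
    have h2 : dl l x = dl l y := by
      have h3 := congrArg (fun g : GL (Fin 2) ℝ => (g : Matrix (Fin 2) (Fin 2) ℝ)) h1
      simp only [coe_toGL (det_dl_ne hl.ne_zero _)] at h3
      ext i j
      have h4 := congrFun (congrFun h3 i) j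
      simp only [Matrix.map_apply] at h4
      exact_mod_cast h4
    exact dl_eq_of hl (B := 1) (by rw [Matrix.one_mul]; exact h2)
  have hbij : Function.Bijective e := by
    rw [Fintype.bijective_iff_injective_and_card]
    exact ⟨hinj, by simp [ZMod.card]⟩
  have htr := (famT hl hlN).tr_elt γ
  set σ := (famT hl hlN).perm γ
  set g := (famT hl hlN).elt γ
  let E := Equiv.ofBijective e hbij
  have hrel : HeckeHom.Rel (repT l) N γ ((E.symm.trans σ).trans E) (fun y => g (E.symm y)) := by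
    intro y
    obtain ⟨x, rfl⟩ := E.surjective y
    have h1 := congrArg toGL (htr x)
    rw [toGL_mul (det_dl_ne hl.ne_zero _) (by rw [det_coe']; exact one_ne_zero),
      toGL_mul (by rw [det_coe']; exact one_ne_zero) (det_dl_ne hl.ne_zero _), toGL_SL, toGL_SL,
      he, he] at h1
    simp only [Equiv.trans_apply, Equiv.symm_apply_apply]
    exact h1
  have h2 := (isHeckeFam_T hl hlN).op_apply_of_rel φ hrel
  rw [opT, h2, Fam.op_apply_of_tr _ _ _ htr]
  exact Equiv.sum_comp E.symm (fun x => φ (Additive.ofMul (g x)))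

/-- comparison with `HeckeHom.opU` -/
theorem opU_eq [NeZero N] (hq : q.Prime) (hqN : q ∣ N) :
    HeckeHom.opU N hqN A = (famU hq hqN).op A := by
  have : NeZero q := ⟨hq.ne_zero⟩
  refine AddMonoidHom.ext fun φ => AddMonoidHom.ext fun γ => ?_
  obtain ⟨γ, rfl⟩ := Additive.ofMul.surjective γ
  have e0 : ∀ x : Fin q, ∃ y : ZMod q, toGL (dl q (some x)) = repU q y := by
    intro j
    refine ⟨((j : ℕ) : ZMod q), ?_⟩
    rw [repU, ZMod.val_natCast_of_lt j.2]
    exact (heckeMatrix_eq_toGL hq.ne_zero j).symm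
  choose e he using e0
  have hinj : Function.Injective e := by
    intro x y hxy
    have h1 := he x
    rw [hxy, ← he y] at h1
    have h2 : dl q (some x) = dl q (some y) := by
      have h3 := congrArg (fun g : GL (Fin 2) ℝ => (g : Matrix (Fin 2) (Fin 2) ℝ)) h1
      simp only [coe_toGL (det_dl_ne hq.ne_zero _)] at h3
      ext i j
      have h4 := congrFun (congrFun h3 i) j
      simp only [Matrix.map_apply] at h4
      exact_mod_cast h4
    exact Option.some_injective _ (dl_eq_of hq (B := 1) (by rw [Matrix.one_mul]; exact h2))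
  have hbij : Function.Bijective e := by
    rw [Fintype.bijective_iff_injective_and_card]
    exact ⟨hinj, by simp [ZMod.card]⟩
  have htr := (famU hq hqN).tr_elt γ
  set σ := (famU hq hqN).perm γ
  set g := (famU hq hqN).elt γ
  let E := Equiv.ofBijective e hbij
  have hrel : HeckeHom.Rel (repU q) N γ ((E.symm.trans σ).trans E) (fun y => g (E.symm y)) := by
    intro y
    obtain ⟨x, rfl⟩ := E.surjective y
    have h1 := congrArg toGL (htr x)
    rw [toGL_mul (det_dl_ne hq.ne_zero _) (by rw [det_coe']; exact one_ne_zero),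
      toGL_mul (by rw [det_coe']; exact one_ne_zero) (det_dl_ne hq.ne_zero _), toGL_SL, toGL_SL,
      he, he] at h1
    simp only [Equiv.trans_apply, Equiv.symm_apply_apply]
    exact h1
  have h2 := (isHeckeFam_U hqN).op_apply_of_rel φ hrel
  rw [opU, h2, Fam.op_apply_of_tr _ _ _ htr]
  exact Equiv.sum_comp E.symm (fun x => φ (Additive.ofMul (g x)))

end helper9

section W

variable {B C : M2}

/-- independence of the matrix -/
theorem W_op_eq (hN : Q ∣ N) (hQ : Q ≠ 0) (hB : B ∈ WS N Q) (hC : C ∈ WS N Q) :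
    (famW hN hQ hB).op A = (famW hN hQ hC).op A := by
  obtain ⟨γ, h1, h2, h3⟩ := WS_mul_adj hN hB hC hQ
  exact Fam.op_eq' _ _ (Equiv.refl _) fun _ => ⟨mkG γ h1 h2, h3⟩

/-- Atkin–Lehner operators are involutions -/
theorem W_W_op (hN : Q ∣ N) (hQ : Q ≠ 0) (hB : B ∈ WS N Q) (hC : C ∈ WS N Q)
    (φ : Additive (GG N) →+ A) :
    (famW hN hQ hC).op A ((famW hN hQ hB).op A φ) = φ := by
  rw [W_op_eq hN hQ hB (adj_mem_WS hC), Fam.op_op]
  conv_rhs => rw [← Fam.one_op φ]
  refine DFunLike.congr_fun (Fam.op_eq _ _ (Equiv.prodUnique Unit Unit) (c := 1) (c' := Q)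
    one_ne_zero fun _ => ⟨1, ?_⟩) φ
  rw [one_smul, Matrix.adjugate_mul, hC.1]
  simp

variable [NeZero N]

lemma ne_zero_of_dvd (hN : Q ∣ N) : Q ≠ 0 :=
  fun h => NeZero.ne N (Nat.eq_zero_of_zero_dvd (h ▸ hN))

omit [NeZero N] in
/-- a choice of Atkin–Lehner matrix -/
def wMat (hN : Q ∣ N) (hco : Q.Coprime (N / Q)) : M2 := (exists_WS hN hco).choose

omit [NeZero N] in
lemma wMat_mem (hN : Q ∣ N) (hco : Q.Coprime (N / Q)) : wMat hN hco ∈ WS N Q :=
  (exists_WS hN hco).choose_spec

/-- the Atkin–Lehner involution -/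
def wop (hN : Q ∣ N) (hco : Q.Coprime (N / Q)) (A : Type*) [AddCommGroup A] :
    (Additive (GG N) →+ A) →+ (Additive (GG N) →+ A) :=
  (famW hN (ne_zero_of_dvd hN) (wMat_mem hN hco)).op A

theorem wop_eq (hN : Q ∣ N) (hco : Q.Coprime (N / Q)) (hQ : Q ≠ 0) (hB : B ∈ WS N Q) :
    wop hN hco A = (famW hN hQ hB).op A := W_op_eq hN hQ (wMat_mem hN hco) hB

theorem wop_wop (hN : Q ∣ N) (hco : Q.Coprime (N / Q)) (φ : Additive (GG N) →+ A) :
    wop hN hco A (wop hN hco A φ) = φ :=
  W_W_op hN (ne_zero_of_dvd hN) (wMat_mem hN hco) (wMat_mem hN hco) φ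

theorem wop_T_comm (hN : Q ∣ N) (hco : Q.Coprime (N / Q)) (hl : l.Prime) (hlN : ¬ l ∣ N)
    (φ : Additive (GG N) →+ A) :
    wop hN hco A ((famT hl hlN).op A φ) = (famT hl hlN).op A (wop hN hco A φ) :=
  W_T_comm hl hN (ne_zero_of_dvd hN) (wMat_mem hN hco) hlN φ

theorem tr_T_comm' (hMN : M ∣ N) (hl : l.Prime) (hlN : ¬ l ∣ N) (hlM : ¬ l ∣ M)
    (φ : Additive (GG N) →+ A) :
    tr hMN A ((famT hl hlN).op A φ) = (famT hl hlM).op A (tr hMN A φ) :=
  tr_T_comm hl (exists_isReps hMN).choose_spec.choose_spec hlN hlM φ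

/-- naturality -/
theorem comp_wop {B : Type*} [AddCommGroup B] (hN : Q ∣ N) (hco : Q.Coprime (N / Q)) (u : A →+ B)
    (φ : Additive (GG N) →+ A) : u.comp (wop hN hco A φ) = wop hN hco B (u.comp φ) :=
  Fam.comp_op _ u φ

/-- naturality -/
theorem comp_tr {B : Type*} [AddCommGroup B] (hMN : M ∣ N) (u : A →+ B)
    (φ : Additive (GG N) →+ A) : u.comp (tr hMN A φ) = tr hMN B (u.comp φ) :=
  Fam.comp_op _ u φ

end W

section par

variable {ι : Type*} [Fintype ι] {Γ Γ' : Subgroup SL(2, ℤ)} {rep : ι → M2}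

open HeckeHom in
/-- parabolic homomorphisms are preserved -/
theorem isParabolicHom_op (hF : Fam Γ Γ' rep) {φ : Additive Γ →+ A}
    (hφ : IsParabolicHom Γ φ) : IsParabolicHom Γ' (hF.op A φ) := by
  intro γ hγ
  -- powers
  have hpow : ∀ r : ℕ, Tr Γ rep ((γ ^ r : Γ') : SL(2, ℤ)) (hF.perm γ ^ r)
      (fun x => ((List.range r).map fun i => hF.elt γ ((hF.perm γ ^ i) x)).prod) := by
    intro r
    induction r with
    | zero => intro x; simp
    | succ r ih =>
      have h1 := ih.mul (hF.tr_elt γ)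
      have h2 : (fun x => ((List.range (r + 1)).map fun i => hF.elt γ ((hF.perm γ ^ i) x)).prod) =
          fun x => ((List.range r).map fun i => hF.elt γ ((hF.perm γ ^ i) x)).prod *
            hF.elt γ ((hF.perm γ ^ r) x) := by
        funext x
        rw [List.range_succ, List.map_append, List.prod_append, List.map_singleton,
          List.prod_singleton]
      rw [h2, pow_succ, Subgroup.coe_mul, pow_succ']
      exact h1
  rw [Fam.op_apply_of_tr hF φ γ (hF.tr_elt γ)]
  apply sum_eq_zero_of_cycles (hF.perm γ)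
  intro x r hr0 hr
  clear hr0
  have h1 : φ (Additive.ofMul (((List.range r).map fun i => hF.elt γ ((hF.perm γ ^ i) x)).prod)) =
      ∑ i ∈ Finset.range r, φ (Additive.ofMul (hF.elt γ ((hF.perm γ ^ i) x))) := by
    clear hr
    induction r with
    | zero => simp
    | succ r ih =>
      rw [List.range_succ, List.map_append, List.prod_append, ofMul_mul, map_add, ih,
        Finset.sum_range_succ]
      simp
  rw [← h1]
  apply hφ
  have h2 := hpow r x
  rw [hr] at h2
  have h3 := congrArg (fun X => (X * (rep x).adjugate).trace) h2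
  simp only at h3
  rw [Matrix.mul_assoc, Matrix.trace_mul_comm, Matrix.mul_assoc, Matrix.adjugate_mul,
    Matrix.mul_assoc, Matrix.mul_adjugate, Matrix.mul_smul, Matrix.mul_smul, Matrix.mul_one,
    Matrix.mul_one, Matrix.trace_smul, Matrix.trace_smul, smul_eq_mul, smul_eq_mul] at h3
  rw [← mul_left_cancel₀ (hF.det x) h3, Subgroup.coe_pow]
  exact IsHeckeFam.trace_pow_sq _ hγ r

end par

end

end Fermat.Agent.ALCoh
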