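import Fermat.Agent.ALCoh.Ident

/-!
# Identities between degeneracy, trace, Atkin–Lehner and Hecke operators, II
-/

set_option autoImplicit false

open Matrix.SpecialLinearGroup
open scoped MatrixGroups
open Fermat.Agent.AL ModularCurve

namespace Fermat.Agent.ALCoh

noncomputable section

variable {N M Q l q : ℕ} {A : Type*} [AddCommGroup A] {B : M2}

lemma smul_eq_scalar (n : ℤ) (X : M2) : !![n, 0; 0, n] * X = n • X := by
  apply mat_ext <;> simp [Matrix.mul_apply, Fin.sum_univ_two]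

section exact

variable (hq : q.Prime) [NeZero (M * q)]

/-- `res ∘ tr = 1 + U_q w_q` for `q ‖ N`. -/
theorem res_tr (hqM : ¬ q ∣ M) (hB : B ∈ WS (M * q) q) (φ : Additive (GG (M * q)) →+ A) :
    (famRes (dvd_mul_right M q)).op A (tr (dvd_mul_right M q) A φ) =
      φ + (famU hq (dvd_mul_left q M)).op A
        ((famW (dvd_mul_left q M) hq.ne_zero hB).op A φ) := by
  obtain ⟨r, hr, hr1, hr2⟩ := exists_reps_W hq hqM hB
  have hle : GG (M * q) ≤ GG M := fun γ hγ => mem_Gamma0_iff.mpr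
    ((Int.natCast_dvd_natCast.mpr (dvd_mul_right M q)).trans (dvd_of_mem hγ))
  have hqZ : (q : ℤ) ≠ 0 := by exact_mod_cast hq.ne_zero
  have h1 := (famTr hr).mono hle
  have h2 : Fam (GG (M * q)) (GG (M * q)) (fun _ : Unit => ((r none : SL(2, ℤ)) : M2)) :=
    Fam.one.congr (Equiv.refl _) (c := 1) (c' := 1) one_ne_zero one_ne_zero
      (fun _ => ⟨1, by rw [hr1]; simp⟩)
  have h0 : ∀ x : Fin q, (q : ℤ) • ((r (some x) : SL(2, ℤ)) : M2) = B * dl q (some x) := by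
    intro x
    rw [hr2 x, smul_eq_scalar]
  have h3 : Fam (GG (M * q)) (GG (M * q)) (fun x : Fin q => ((r (some x) : SL(2, ℤ)) : M2)) :=
    ((famW (dvd_mul_left q M) hq.ne_zero hB).mul (famU hq (dvd_mul_left q M))).congr
      (Equiv.uniqueProd (Fin q) Unit).symm (c := q) (c' := 1) hqZ one_ne_zero
      (fun x => ⟨1, by rw [h0]; simp⟩)
  rw [tr_eq _ hr, Fam.op_op, Fam.op_op]
  have e1 : ((famTr hr).mul (famRes (dvd_mul_right M q))).op A φ = h1.op A φ :=
    DFunLike.congr_fun (Fam.op_eq' _ _ (Equiv.prodUnique _ _) fun z => ⟨1, by simp⟩) φ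
  rw [e1, Fam.op_option h1 h2 h3]
  congr 1
  · have := DFunLike.congr_fun (Fam.op_eq' (A := A) h2 Fam.one (Equiv.refl _)
      (fun _ => ⟨1, by rw [hr1]; simp⟩)) φ
    rw [this, Fam.one_op]
  · exact DFunLike.congr_fun (Fam.op_eq (A := A) h3 _ (Equiv.uniqueProd (Fin q) Unit).symm (c := q)
      (c' := 1) hqZ (fun x => ⟨1, by rw [h0]; simp⟩)) φ

omit [NeZero (M * q)] in
/-- `res_q = w_q ∘ res`. -/
theorem W_res (hB : B ∈ WS (M * q) q) (φ : Additive (GG M) →+ A) :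
    (famW (dvd_mul_left q M) hq.ne_zero hB).op A ((famRes (dvd_mul_right M q)).op A φ) =
      (famResq hq.ne_zero dvd_rfl).op A φ := by
  have hqZ : (q : ℤ) ≠ 0 := by exact_mod_cast hq.ne_zero
  rw [Fam.op_op]
  obtain ⟨h1, ⟨a, ha⟩, ⟨c, hc⟩, ⟨d, hd⟩⟩ := id hB
  rw [Matrix.det_fin_two, ha, hc, hd] at h1
  push_cast at hc h1
  refine DFunLike.congr_fun (Fam.op_eq' _ _ (Equiv.prodUnique _ _) fun z =>
    ⟨mkG !![a, B 0 1; M * c, q * d] ?_ ?_, ?_⟩) φ
  · rw [Matrix.det_fin_two_of]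
    exact mul_left_cancel₀ hqZ (by linear_combination h1)
  · simp
  · rw [coe_mkG]
    apply mat_ext <;> simp [Matrix.mul_apply, Fin.sum_univ_two]
    · rw [ha]; ring
    · rw [hc]; ring
    · rw [hd]

include hq in
/-- `tr ∘ res = q + 1`. -/
theorem tr_res (hqM : ¬ q ∣ M) (φ : Additive (GG M) →+ A) :
    tr (dvd_mul_right M q) A ((famRes (dvd_mul_right M q)).op A φ) = (q + 1) • φ := by
  have hco : q.Coprime (M * q / q) := by
    rw [Nat.mul_div_cancel _ hq.pos]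
    exact (Nat.Prime.coprime_iff_not_dvd hq).mpr hqM
  obtain ⟨B, hB⟩ := exists_WS (dvd_mul_left q M) hco
  obtain ⟨r, hr, hr1, hr2⟩ := exists_reps_W hq hqM hB
  rw [tr_eq _ hr, Fam.op_op, Fam.op_const _ (fun z => ⟨⟨r z.2, hr.mem z.2⟩, by simp⟩)]
  simp

/-- `tr ∘ res_q = T_q`. -/
theorem tr_resq (hqM : ¬ q ∣ M) (φ : Additive (GG M) →+ A) :
    tr (dvd_mul_right M q) A ((famResq hq.ne_zero dvd_rfl).op A φ) = (famT hq hqM).op A φ := by
  have hqZ : (q : ℤ) ≠ 0 := by exact_mod_cast hq.ne_zero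
  have hco : q.Coprime (M * q / q) := by
    rw [Nat.mul_div_cancel _ hq.pos]
    exact (Nat.Prime.coprime_iff_not_dvd hq).mpr hqM
  obtain ⟨B, hB⟩ := exists_WS (dvd_mul_left q M) hco
  obtain ⟨r, hr, hr1, hr2⟩ := exists_reps_W hq hqM hB
  obtain ⟨h1, ⟨a, ha⟩, ⟨c, hc⟩, ⟨d, hd⟩⟩ := id hB
  rw [Matrix.det_fin_two, ha, hc, hd] at h1
  push_cast at hc h1
  rw [tr_eq _ hr, Fam.op_op]
  refine DFunLike.congr_fun (Fam.op_eq' _ _ (Equiv.uniqueProd _ _) ?_) φ
  rintro ⟨⟨⟩, x⟩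
  cases x with
  | none => exact ⟨1, by simp [hr1, dl]⟩
  | some j =>
    refine ⟨mkG !![q * a, B 0 1; M * c, d] ?_ ?_, ?_⟩
    · rw [Matrix.det_fin_two_of]
      exact mul_left_cancel₀ hqZ (by linear_combination h1)
    · simp
    · refine smul_right_injective M2 hqZ ?_
      change (q : ℤ) • (dg q * (r (some j) : M2)) = (q : ℤ) • _
      rw [← Matrix.mul_smul, ← smul_eq_scalar, ← hr2 j, coe_mkG, Equiv.uniqueProd_apply]
      apply mat_ext <;> simp [dl, Matrix.mul_apply, Fin.sum_univ_two, -mul_eq_mul_left_iff]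
      · rw [ha]
      · rw [ha]
      · rw [hc]; ring
      · rw [hc, hd]; ring

end exact

section low

variable (hq : q.Prime) (hqM : q ∣ M)

/-- `U_q = res ∘ U_q^{low}`. -/
theorem res_Ulow (φ : Additive (GG (M * q)) →+ A) :
    (famRes (dvd_mul_right M q)).op A ((famUlow hq hqM).op A φ) =
      (famU hq (dvd_mul_left q M)).op A φ := by
  rw [Fam.op_op]
  exact DFunLike.congr_fun (Fam.op_eq' _ _ (Equiv.prodUnique _ _) fun z => ⟨1, by simp⟩) φ

/-- completeness of representatives by counting -/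
lemma isReps_of_card {ι κ : Type*} [Fintype ι] [Fintype κ] {r : ι → SL(2, ℤ)}
    {r' : κ → SL(2, ℤ)} (hr : IsReps N M r) (hcard : Fintype.card ι = Fintype.card κ)
    (hmem : ∀ i, r' i ∈ GG M) (hinj : ∀ i j, r' i * (r' j)⁻¹ ∈ GG N → i = j) :
    IsReps N M r' := by
  choose σ hσ using fun i => hr.surj (r' i) (hmem i)
  have hs : Function.Bijective σ := by
    rw [Fintype.bijective_iff_injective_and_card]
    refine ⟨fun i j hij => ?_, hcard.symm⟩
    apply hinj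
    have h1 := (GG N).mul_mem (hσ i) ((GG N).inv_mem (hσ j))
    rw [hij] at h1
    convert h1 using 1
    group
  refine ⟨hmem, hinj, fun γ hγ => ?_⟩
  obtain ⟨i, hi⟩ := hr.surj γ hγ
  obtain ⟨j, rfl⟩ := hs.surjective i
  refine ⟨j, ?_⟩
  have h1 := (GG N).mul_mem hi ((GG N).inv_mem (hσ j))
  convert h1 using 1
  group

/-- The representatives attached to Atkin–Lehner matrices in the case `q² ∣ N`. -/
theorem exists_reps_low (hq : q.Prime) (hM : M ≠ 0) (hQM : Q ∣ M) (hQ : q ∣ Q)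
    {C : M2} (hB : B ∈ WS (M * q) (Q * q)) (hC : C ∈ WS M Q) :
    ∃ r : Fin q → SL(2, ℤ), IsReps (M * q) M r ∧
      ∀ j : Fin q, B * dl q (some j) * C = ((Q * q : ℕ) : ℤ) • (r j : M2) := by
  have hqM : q ∣ M := hQ.trans hQM
  obtain ⟨m, rfl⟩ := hQM
  obtain ⟨hB1, ⟨a, ha⟩, ⟨c, hc⟩, ⟨d, hd⟩⟩ := hB
  obtain ⟨hC1, ⟨a', ha'⟩, ⟨c', hc'⟩, ⟨d', hd'⟩⟩ := hC
  have hQ0 : (Q : ℤ) ≠ 0 := by
    intro h
    apply hM
    have : Q = 0 := by exact_mod_cast h
    rw [this, zero_mul]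
  have hq0 : (q : ℤ) ≠ 0 := by exact_mod_cast hq.ne_zero
  have hm0 : (m : ℤ) ≠ 0 := by
    intro h
    apply hM
    have : m = 0 := by exact_mod_cast h
    rw [this, mul_zero]
  have hpp := Nat.prime_iff_prime_int.mp hq
  obtain ⟨Q₁, hQ₁⟩ := hQ
  have hQ₁' : (Q : ℤ) = q * Q₁ := by exact_mod_cast hQ₁
  set b := B 0 1 with hb
  set b' := C 0 1 with hb'
  rw [Matrix.det_fin_two, ha, hc, hd] at hB1
  rw [Matrix.det_fin_two, ha', hc', hd'] at hC1
  push_cast at hB1 hC1 ha hc hd ha' hc' hd'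
  have hB2 : (Q : ℤ) * q * a * d - b * m * c = 1 :=
    mul_left_cancel₀ (mul_ne_zero hQ0 hq0) (by linear_combination hB1)
  have hC2 : (Q : ℤ) * a' * d' - b' * m * c' = 1 :=
    mul_left_cancel₀ hQ0 (by linear_combination hC1)
  have hqm : ¬ (q : ℤ) ∣ m := by
    rintro ⟨t, ht⟩
    apply hpp.not_isUnit (isUnit_of_dvd_one ⟨Q₁ * a' * d' - b' * t * c', ?_⟩)
    rw [hQ₁', ht] at hC2
    linear_combination -hC2
  have hqc : ¬ (q : ℤ) ∣ c := by
    rintro ⟨t, ht⟩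
    apply hpp.not_isUnit (isUnit_of_dvd_one ⟨Q * a * d - b * m * t, ?_⟩)
    rw [ht] at hB2
    linear_combination -hB2
  have hdet : ∀ j : Fin q, (!![a * Q * a' + a * j * (Q * m) * c' + b * m * c',
      a * b' + a * j * Q * d' + b * d';
      (Q * m) * (c * a' + c * j * m * c' + q * d * c'),
      m * c * b' + (Q * m) * c * j * d' + Q * q * d * d'] : M2).det = 1 := by
    intro j
    rw [Matrix.det_fin_two_of]
    linear_combination hC2 + (Q * a' * d' - b' * m * c' : ℤ) * hB2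
  refine ⟨fun j => mkSL _ (hdet j), ?_, ?_⟩
  · refine isReps_of_card (isReps_low hq hM hqM) rfl (fun j => mkSL_mem _ ?_) (fun i j hij => ?_)
    · simp only [Matrix.of_apply, Matrix.cons_val', Matrix.cons_val_zero, Matrix.cons_val_one,
        Matrix.cons_val_fin_one]
      push_cast
      exact dvd_mul_right _ _
    · rw [mem_Gamma0_iff, Matrix.SpecialLinearGroup.coe_mul, Matrix.SpecialLinearGroup.coe_inv,
        Matrix.adjugate_fin_two] at hij
      simp [Matrix.mul_apply, Fin.sum_univ_two] at hij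
      obtain ⟨e, he⟩ := hij
      apply fin_eq_of_dvd
      have h3 : (q : ℤ) ∣ (m * c * c) * (((i : ℕ) : ℤ) - ((j : ℕ) : ℤ)) :=
        ⟨-e, mul_left_cancel₀ (mul_ne_zero hQ0 hm0) (by
          linear_combination -he - (Q * m * m * c * c * (((i : ℕ) : ℤ) - ((j : ℕ) : ℤ)) : ℤ) * hC2)⟩
      rcases hpp.dvd_mul.mp h3 with h4 | h4
      · rcases hpp.dvd_mul.mp h4 with h5 | h5
        · rcases hpp.dvd_mul.mp h5 with h6 | h6
          · exact absurd h6 hqm
          · exact absurd h6 hqc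
        · exact absurd h5 hqc
      · exact h4
  · intro j
    rw [coe_mkSL]
    apply mat_ext <;>
      simp [dl, Matrix.mul_apply, Fin.sum_univ_two, -mul_eq_mul_left_iff, ← hb, ← hb', ha, ha', hc,
        hc', hd, hd']
    · ring
    · ring
    · ring
    · ring

variable [NeZero (M * q)] {C : M2}

/-- The transfer in the case `q² ∣ N`. -/
theorem tr_low (hq : q.Prime) (hQM : Q ∣ M) (hQ : q ∣ Q) (hQ0 : Q ≠ 0)
    (hB : B ∈ WS (M * q) (Q * q)) (hC : C ∈ WS M Q) (φ : Additive (GG (M * q)) →+ A) :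
    tr (dvd_mul_right M q) A φ = (famW hQM hQ0 hC).op A ((famUlow hq (hQ.trans hQM)).op A
      ((famW (mul_dvd_mul_right hQM q) (mul_ne_zero hQ0 hq.ne_zero) hB).op A φ)) := by
  have hM : M ≠ 0 := fun h => NeZero.ne (M * q) (by rw [h, zero_mul])
  obtain ⟨r, hr, hr2⟩ := exists_reps_low hq hM hQM hQ hB hC
  have hQq : ((Q * q : ℕ) : ℤ) ≠ 0 := by exact_mod_cast mul_ne_zero hQ0 hq.ne_zero
  rw [tr_eq _ hr, Fam.op_op, Fam.op_op]
  refine DFunLike.congr_fun (Fam.op_eq _ _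
    ((Equiv.prodUnique (Fin q) Unit).symm.trans ((Equiv.uniqueProd (Fin q × Unit) Unit).symm))
    (c := ((Q * q : ℕ) : ℤ)) (c' := 1) hQq fun x => ⟨1, ?_⟩) φ
  rw [← hr2 x]
  simp [Matrix.mul_assoc]

/-- `U_q ∘ w_Q = w_{Q/q} ∘ tr`. -/
theorem Ulow_W (hq : q.Prime) (hQM : Q ∣ M) (hQ : q ∣ Q) (hQ0 : Q ≠ 0)
    (hB : B ∈ WS (M * q) (Q * q)) (hC : C ∈ WS M Q) (φ : Additive (GG (M * q)) →+ A) :
    (famUlow hq (hQ.trans hQM)).op A
      ((famW (mul_dvd_mul_right hQM q) (mul_ne_zero hQ0 hq.ne_zero) hB).op A φ) =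
      (famW hQM hQ0 hC).op A (tr (dvd_mul_right M q) A φ) := by
  rw [tr_low hq hQM hQ hQ0 hB hC, W_W_op hQM hQ0 hC hC]

end low

end

end Fermat.Agent.ALCoh
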