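import Fermat.Agent.ALCoh.Ident2
import Fermat.Agent.ALCoh.EigenChar
import Fermat.Agent.HeckeHom.Faithful
import Fermat.Agent.AL.Level

/-!
# Hecke operators killing the old part, nonzero on a newform
-/

set_option autoImplicit false

open ModularFormClass CuspForm ModularCurve ModularCurve.Period Fermat.Agent.HeckeHom

namespace Fermat.Agent.ALCoh

noncomputable section

variable {N M : ℕ} [NeZero N] [NeZero M] {S : Set ℕ}

/-- index set for the abstract Hecke algebra -/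
abbrev sg (S : Set ℕ) : Type := {l : ℕ // l.Prime ∧ l ∉ S}

/-- evaluation of abstract Hecke operators -/
def evT (hNS : ∀ q : ℕ, q.Prime → q ∣ N → q ∈ S) :
    MvPolynomial (sg S) ℤ →+* heckeAlgebra N 2 S :=
  MvPolynomial.eval₂Hom (Int.castRingHom (heckeAlgebra N 2 S))
    (fun l => heckeAlgebra.T l.2.1 (fun h => l.2.2 (hNS l l.2.1 h)) l.2.2)

lemma evT_X (hNS : ∀ q : ℕ, q.Prime → q ∣ N → q ∈ S) (l : sg S) :
    evT hNS (MvPolynomial.X l) =
      heckeAlgebra.T l.2.1 (fun h => l.2.2 (hNS l l.2.1 h)) l.2.2 := by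
  rw [evT, MvPolynomial.coe_eval₂Hom, MvPolynomial.eval₂_X]

lemma evT_surjective (hNS : ∀ q : ℕ, q.Prime → q ∣ N → q ∈ S) :
    Function.Surjective (evT (N := N) hNS) := by
  rintro ⟨t, ht⟩
  induction ht using Algebra.adjoin_induction with
  | mem x hx =>
    rcases hx with ⟨l, hl, hlN, hlS, rfl⟩ | ⟨q, hqN, hq, hqS, rfl⟩
    · exact ⟨MvPolynomial.X ⟨l, hl, hlS⟩, evT_X hNS _⟩
    · exact absurd (hNS q hq hqN) hqS
  | algebraMap r =>
    refine ⟨(r : MvPolynomial (sg S) ℤ), ?_⟩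
    rw [map_intCast]
    apply Subtype.ext
    simp
  | add x y hx hy ihx ihy =>
    obtain ⟨P, hP⟩ := ihx
    obtain ⟨P', hP'⟩ := ihy
    exact ⟨P + P', by rw [map_add, hP, hP']; rfl⟩
  | mul x y hx hy ihx ihy =>
    obtain ⟨P, hP⟩ := ihx
    obtain ⟨P', hP'⟩ := ihy
    exact ⟨P * P', by rw [map_mul, hP, hP']; rfl⟩

/-- Equivariant maps. -/
lemma equivariant (hNS : ∀ q : ℕ, q.Prime → q ∣ N → q ∈ S)
    (hMS : ∀ q : ℕ, q.Prime → q ∣ M → q ∈ S) (F : LZ N →+ LZ M)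
    (hF : ∀ (l : ℕ) (hl : l.Prime) (hlN : ¬ l ∣ N) (hlM : ¬ l ∣ M) (φ : LZ N),
      F ⟨opT N hl hlN ℤ φ.1, isParabolicHom_opT hl hlN φ.2⟩ =
        ⟨opT M hl hlM ℤ (F φ).1, isParabolicHom_opT hl hlM (F φ).2⟩)
    (P : MvPolynomial (sg S) ℤ) (φ : LZ N) :
    F (actL N S (evT hNS P) φ) = actL M S (evT hMS P) (F φ) := by
  induction P using MvPolynomial.induction_on generalizing φ with
  | C a =>
    have h1 : (MvPolynomial.C a : MvPolynomial (sg S) ℤ) = (a : MvPolynomial (sg S) ℤ) := by simp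
    rw [h1, map_intCast, map_intCast, map_intCast, map_intCast, ← zsmul_one, ← zsmul_one,
      LinearMap.smul_apply, LinearMap.smul_apply, Module.End.one_apply, Module.End.one_apply,
      map_zsmul]
  | add P P' ih ih' =>
    rw [map_add, map_add, map_add, map_add, LinearMap.add_apply, LinearMap.add_apply, map_add, ih,
      ih']
  | mul_X P l ih =>
    have hlN : ¬ (l : ℕ) ∣ N := fun h => l.2.2 (hNS l l.2.1 h)
    have hlM : ¬ (l : ℕ) ∣ M := fun h => l.2.2 (hMS l l.2.1 h)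
    rw [map_mul, map_mul, map_mul, map_mul, Module.End.mul_apply, Module.End.mul_apply, ih, evT_X,
      evT_X]
    congr 1
    have h1 : actL N S (heckeAlgebra.T l.2.1 hlN l.2.2) φ =
        ⟨opT N l.2.1 hlN ℤ φ.1, isParabolicHom_opT l.2.1 hlN φ.2⟩ :=
      Subtype.ext (actL_T l.2.1 hlN l.2.2 φ)
    have h2 : actL M S (heckeAlgebra.T l.2.1 hlM l.2.2) (F φ) =
        ⟨opT M l.2.1 hlM ℤ (F φ).1, isParabolicHom_opT l.2.1 hlM (F φ).2⟩ :=
      Subtype.ext (actL_T l.2.1 hlM l.2.2 (F φ))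
    rw [h1, h2]
    exact hF l l.2.1 hlN hlM φ

/-- **Killing the old part.** -/
theorem exists_kill {g : CuspForm (CongruenceSubgroup.Gamma0 N) 2} (hg : g.IsNewform)
    (hS : S.Finite) (hNS : ∀ q : ℕ, q.Prime → q ∣ N → q ∈ S)
    (θ : heckeAlgebra N 2 S →+* ℂ)
    (hθ : ∀ (l : ℕ) (hl : l.Prime) (hlN : ¬ l ∣ N) (hlS : l ∉ S),
      θ (heckeAlgebra.T hl hlN hlS) = qCoeff g l) (hMN : M ∣ N) (hne : M ≠ N) :
    ∃ a : heckeAlgebra N 2 S, θ a ≠ 0 ∧ ∀ F : LZ N →+ LZ M,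
      (∀ (l : ℕ) (hl : l.Prime) (hlN : ¬ l ∣ N) (hlM : ¬ l ∣ M) (φ : LZ N),
        F ⟨opT N hl hlN ℤ φ.1, isParabolicHom_opT hl hlN φ.2⟩ =
          ⟨opT M hl hlM ℤ (F φ).1, isParabolicHom_opT hl hlM (F φ).2⟩) →
      ∀ φ : LZ N, F (actL N S a φ) = 0 := by
  have hMS : ∀ q : ℕ, q.Prime → q ∣ M → q ∈ S := fun q hq hqM => hNS q hq (hqM.trans hMN)
  by_cases hker : ∀ P : MvPolynomial (sg S) ℤ, evT hMS P = 0 → θ (evT hNS P) = 0
  · exfalso
    let θ' : heckeAlgebra M 2 S →+* ℂ := RingHom.liftOfSurjective (evT hMS)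
      (evT_surjective (N := M) hMS) ⟨θ.comp (evT hNS), fun P hP => hker P hP⟩
    have hθ' : ∀ P, θ' (evT hMS P) = θ (evT hNS P) := fun P =>
      RingHom.liftOfRightInverse_comp_apply _ _ _ _ P
    obtain ⟨f, hf0, hf⟩ := exists_eigenform_of_char θ'
    apply hf0
    have h1 : (f : UpperHalfPlane → ℂ) = 0 := by
      refine AL.newform_eq_zero hg hMN hne hS (MFLib.IsCF.of_class f) fun l hl hlN hlS => ?_
      have hlM : ¬ l ∣ M := fun h => hlN (h.trans hMN)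
      have h2 := hf (heckeAlgebra.T hl hlM hlS)
      have h3 : θ' (heckeAlgebra.T hl hlM hlS) = qCoeff g l := by
        have := hθ' (MvPolynomial.X (⟨l, hl, hlS⟩ : sg S))
        rw [evT_X, evT_X] at this
        rw [this]
        exact hθ l hl hlN hlS
      rw [h3] at h2
      exact congrArg (fun F : CuspForm (CongruenceSubgroup.Gamma0 M) 2 =>
        (F : UpperHalfPlane → ℂ)) h2
    exact DFunLike.coe_injective h1
  · push Not at hker
    obtain ⟨P, hP, hP'⟩ := hker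
    refine ⟨evT hNS P, hP', fun F hF φ => ?_⟩
    rw [equivariant hNS hMS F hF P φ, hP, map_zero, LinearMap.zero_apply]

/-- **Killing traces**: the format needed for the nodal model. -/
theorem exists_kill_tr {g : CuspForm (CongruenceSubgroup.Gamma0 N) 2} (hg : g.IsNewform)
    (hS : S.Finite) (hNS : ∀ q : ℕ, q.Prime → q ∣ N → q ∈ S)
    (θ : heckeAlgebra N 2 S →+* ℂ)
    (hθ : ∀ (l : ℕ) (hl : l.Prime) (hlN : ¬ l ∣ N) (hlS : l ∉ S),
      θ (heckeAlgebra.T hl hlN hlS) = qCoeff g l) (hMN : M ∣ N) (hne : M ≠ N)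
    {Q : ℕ} (hQ : Q ∣ N) (hco : Q.Coprime (N / Q)) :
    ∃ a : heckeAlgebra N 2 S, θ a ≠ 0 ∧ ∀ φ : LZ N,
      tr hMN ℤ (actL N S a φ).1 = 0 ∧ tr hMN ℤ (wop hQ hco ℤ (actL N S a φ).1) = 0 := by
  obtain ⟨a, ha, h⟩ := exists_kill hg hS hNS θ hθ hMN hne
  have ptr : ∀ φ : Additive (GG N) →+ ℤ, IsParabolicHom (GG N) φ →
      IsParabolicHom (GG M) (tr hMN ℤ φ) := fun φ hφ =>
    isParabolicHom_op (famTr (exists_isReps hMN).choose_spec.choose_spec) hφ
  have pw : ∀ φ : Additive (GG N) →+ ℤ, IsParabolicHom (GG N) φ →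
      IsParabolicHom (GG N) (wop hQ hco ℤ φ) := fun φ hφ =>
    isParabolicHom_op (famW hQ (ne_zero_of_dvd hQ) (wMat_mem hQ hco)) hφ
  refine ⟨a, ha, fun φ => ⟨?_, ?_⟩⟩
  · let F : LZ N →+ LZ M :=
      { toFun := fun φ => ⟨tr hMN ℤ φ.1, ptr _ φ.2⟩
        map_zero' := Subtype.ext (map_zero (tr hMN ℤ))
        map_add' := fun φ ψ => Subtype.ext (map_add (tr hMN ℤ) φ.1 ψ.1) }
    have h1 := h F (fun l hl hlN hlM φ => Subtype.ext (by
      change tr hMN ℤ (opT N hl hlN ℤ φ.1) = opT M hl hlM ℤ (tr hMN ℤ φ.1)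
      rw [opT_eq hl hlN, opT_eq hl hlM, tr_T_comm' hMN hl hlN hlM])) φ
    exact congrArg Subtype.val h1
  · let F : LZ N →+ LZ M :=
      { toFun := fun φ => ⟨tr hMN ℤ (wop hQ hco ℤ φ.1), ptr _ (pw _ φ.2)⟩
        map_zero' := Subtype.ext (by
          change tr hMN ℤ (wop hQ hco ℤ 0) = 0
          rw [map_zero, map_zero])
        map_add' := fun φ ψ => Subtype.ext (by
          change tr hMN ℤ (wop hQ hco ℤ (φ.1 + ψ.1)) = _
          rw [map_add, map_add]; rfl) }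
    have h1 := h F (fun l hl hlN hlM φ => Subtype.ext (by
      change tr hMN ℤ (wop hQ hco ℤ (opT N hl hlN ℤ φ.1)) =
        opT M hl hlM ℤ (tr hMN ℤ (wop hQ hco ℤ φ.1))
      rw [opT_eq hl hlN, opT_eq hl hlM, wop_T_comm hQ hco hl hlN, tr_T_comm' hMN hl hlN hlM])) φ
    exact congrArg Subtype.val h1

end

end Fermat.Agent.ALCoh
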