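import Fermat.Agent.ALCoh.Ident2
import Fermat.Agent.HeckeProd.QExp
import Fermat.Agent.Kum.Rep

/-!
# Multiplicative double coset operators on modular functions
-/

set_option autoImplicit false
set_option linter.unusedSectionVars false

open UpperHalfPlane ModularForm Complex Matrix.SpecialLinearGroup
open scoped MatrixGroups Manifold
open Fermat.Agent.AL Fermat.Agent.Kum Fermat.Agent.MFLib Fermat.Agent.HeckeProd ModularCurve

namespace Fermat.Agent.ALCoh

noncomputable section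

variable {N N' N'' : ℕ} {ι κ : Type*} [Fintype ι] [Fintype κ] {rep : ι → M2} {rep' : κ → M2}
  {k l : ℤ} {f g u v : ℍ → ℂ} {B : M2}

/-- product of the translates -/
def prodSl (k : ℤ) (rep : ι → M2) (f : ℍ → ℂ) : ℍ → ℂ := ∏ x, sl k (rep x) f

lemma sl_mulf (h : 0 < B.det) : sl (k + l) B (f * g) = (B.det : ℂ) • (sl k B f * sl l B g) := by
  have h1 : |((toGL B).det : ℝ)| = B.det := by
    rw [det_toGL h.ne', abs_of_pos (by exact_mod_cast h)]
  rw [sl_def, ModularForm.mul_slash, h1]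
  funext τ
  simp only [Pi.mul_apply, Pi.smul_apply, smul_eq_mul, sl_def]
  simp

/-- the constant -/
def dc (rep : ι → M2) : ℂ := ∏ x, ((rep x).det : ℂ)

lemma dc_ne_zero (hdet : ∀ x, 0 < (rep x).det) : dc rep ≠ 0 := by
  rw [dc, Finset.prod_ne_zero_iff]
  intro x _
  exact_mod_cast (hdet x).ne'

lemma prodSl_mul (hdet : ∀ x, 0 < (rep x).det) :
    prodSl (k + l) rep (f * g) = dc rep • (prodSl k rep f * prodSl l rep g) := by
  funext τ
  simp only [prodSl, dc, Finset.prod_apply, Pi.mul_apply, Pi.smul_apply, smul_eq_mul]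
  rw [← Finset.prod_mul_distrib, ← Finset.prod_mul_distrib]
  refine Finset.prod_congr rfl fun x _ => ?_
  rw [sl_mulf (hdet x)]
  rfl

lemma prodSl_pow (hdet : ∀ x, 0 < (rep x).det) (n : ℕ) (hn : 1 ≤ n) :
    ∃ c : ℂ, c ≠ 0 ∧ ∀ f : ℍ → ℂ, prodSl (n * k) rep (f ^ n) = c • prodSl k rep f ^ n := by
  induction n, hn using Nat.le_induction with
  | base => exact ⟨1, one_ne_zero, fun f => by simp⟩
  | succ n hn ih =>
    obtain ⟨c, hc, h⟩ := ih
    refine ⟨dc rep * c, mul_ne_zero (dc_ne_zero hdet) hc, fun f => ?_⟩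
    have e : ((n + 1 : ℕ) : ℤ) * k = n * k + k := by push_cast; ring
    rw [e, pow_succ, prodSl_mul hdet, h, pow_succ, smul_mul_assoc, smul_smul]

lemma hb_prodSl (hu : HB k u) : HB ((Fintype.card ι : ℤ) * k) (prodSl k rep u) := by
  have := HB.prod (s := (Finset.univ : Finset ι)) (k := k) (F := fun x => sl k (rep x) u)
    (fun x _ => HB_sl hu _)
  rwa [Finset.card_univ] at this

lemma prodSl_ne_zero (hu : MDiff u) (h0 : u ≠ 0) : prodSl k rep u ≠ 0 :=
  (prod_ne_zero_of_holo _ _ (fun x _ => hu.slash k (toGL (rep x)))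
    (fun x _ => HeckeProd.slash_ne_zero h0 (toGL (rep x)))).2

lemma prodSl_slash_of_tr {Γ : Subgroup SL(2, ℤ)} (hdet : ∀ x, 0 < (rep x).det) {γ : SL(2, ℤ)}
    {σ : Equiv.Perm ι} {g : ι → Γ} (htr : Tr Γ rep γ σ g) {c : Γ → ℂ}
    (hu : ∀ δ : Γ, u ∣[k] (δ : SL(2, ℤ)) = c δ • u) :
    (prodSl k rep u) ∣[(Fintype.card ι : ℤ) * k] γ = (∏ x, c (g x)) • prodSl k rep u := by
  have h1 := prod_slash_SL (Finset.univ : Finset ι) (fun x => sl k (rep x) u) k γ
  rw [Finset.card_univ] at h1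
  rw [prodSl, h1]
  have h2 : ∀ x, (sl k (rep x) u) ∣[k] γ = c (g x) • sl k (rep (σ x)) u := by
    intro x
    rw [← sl_SL, ← sl_mul (hdet x).ne' (by rw [γ.det_coe]; exact one_ne_zero), htr x,
      sl_mul (by rw [det_coe']; exact one_ne_zero) (hdet _).ne', sl_SL, hu,
      sl_smul (hdet _)]
  rw [Finset.prod_congr rfl (fun x _ => h2 x)]
  funext τ
  simp only [Finset.prod_apply, Pi.smul_apply, smul_eq_mul, Finset.prod_mul_distrib]
  congr 1
  exact Equiv.prod_comp σ (fun x => (sl k (rep x) u) τ)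

theorem isMF_prodSl (hF : Fam (GG N) (GG N') rep) (hdet : ∀ x, 0 < (rep x).det)
    (hf : IsMF (G0 N) k f) : IsMF (G0 N') ((Fintype.card ι : ℤ) * k) (prodSl k rep f) where
  toHB := hb_prodSl hf.toHB
  slash γ hγ := by
    rw [prodSl_slash_of_tr hdet (hF.tr_elt ⟨γ, hγ⟩) (c := fun _ => 1)
      (fun δ => by rw [hf.slash _ δ.2, one_smul])]
    simp

open Classical in
/-- The multiplicative operator attached to a family. -/
def mop (N : ℕ) (rep : ι → M2) (x : LaurentSeries ℂ) : LaurentSeries ℂ :=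
  if h : ∃ k f g, RepF N x k f g then
    ql (prodSl h.choose rep h.choose_spec.choose) /
      ql (prodSl h.choose rep h.choose_spec.choose_spec.choose)
  else 0

section

variable {x y : LaurentSeries ℂ}

theorem repF_mop (hF : Fam (GG N) (GG N') rep) (hdet : ∀ x, 0 < (rep x).det)
    (h : RepF N x k f g) :
    RepF N' (mop N rep x) ((Fintype.card ι : ℤ) * k) (prodSl k rep f) (prodSl k rep g) where
  mf := isMF_prodSl hF hdet h.mf
  mg := isMF_prodSl hF hdet h.mg
  g0 := prodSl_ne_zero h.mg.holo h.g0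
  eq := by
    have hex : ∃ k f g, RepF N x k f g := ⟨k, f, g, h⟩
    have h' : RepF N x hex.choose hex.choose_spec.choose hex.choose_spec.choose_spec.choose :=
      hex.choose_spec.choose_spec.choose_spec
    rw [mop, dif_pos hex]
    set k' := hex.choose
    set f' := hex.choose_spec.choose
    set g' := hex.choose_spec.choose_spec.choose
    have h1 := h.cross h'
    have h2 : prodSl k rep f * prodSl k' rep g' = prodSl k' rep f' * prodSl k rep g := by
      have h3 := prodSl_mul (k := k) (l := k') (f := f) (g := g') hdet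
      rw [h1, add_comm k k', prodSl_mul hdet] at h3
      exact (smul_right_injective _ (dc_ne_zero hdet) h3).symm
    have m1 := isMF_prodSl hF hdet h.mf
    have m2 := isMF_prodSl hF hdet h.mg
    have m3 := isMF_prodSl hF hdet h'.mf
    have m4 := isMF_prodSl hF hdet h'.mg
    have h4 : ql (prodSl k' rep g') ≠ 0 := by
      rw [ne_eq, ql_eq_zero m4.qgN]
      exact prodSl_ne_zero h'.mg.holo h'.g0
    rw [div_mul_eq_mul_div, div_eq_iff h4, ← ql_mul m1.qgN m4.qgN, ← ql_mul m3.qgN m2.qgN, h2]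

theorem mop_mem (hF : Fam (GG N) (GG N') rep) (hdet : ∀ x, 0 < (rep x).det) (hx : x ∈ MFun N) :
    mop N rep x ∈ MFun N' := by
  obtain ⟨k, f, g, h⟩ := hx
  exact ⟨_, _, _, repF_mop hF hdet h⟩

theorem _root_.Fermat.Agent.Kum.RepF.unique {x y : LaurentSeries ℂ} (h : RepF N x k f g)
    (h' : RepF N y k f g) : x = y := by
  have h1 : ql g ≠ 0 := by
    rw [ne_eq, ql_eq_zero h.mg.qgN]
    exact h.g0
  exact mul_right_cancel₀ h1 (h.eq.trans h'.eq.symm)

theorem _root_.Fermat.Agent.Kum.RepF.smul {x : LaurentSeries ℂ} {c : ℂ} (hc : c ≠ 0)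
    (h : RepF N x k f g) : RepF N x k (c • f) (c • g) where
  mf := h.mf.smul c
  mg := h.mg.smul c
  g0 := smul_ne_zero hc h.g0
  eq := by
    rw [ql_smul c h.mg.qgN, ql_smul c h.mf.qgN, ← h.eq]
    ring

theorem _root_.Fermat.Agent.Kum.RepF.congrW {x : LaurentSeries ℂ} (h : RepF N x k f g)
    (e : k = l) : RepF N x l f g := e ▸ h

theorem mop_mul (hF : Fam (GG N) (GG N') rep) (hdet : ∀ x, 0 < (rep x).det) (hx : x ∈ MFun N)
    (hy : y ∈ MFun N) : mop N rep (x * y) = mop N rep x * mop N rep y := by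
  obtain ⟨k, f, g, h⟩ := hx
  obtain ⟨k', f', g', h'⟩ := hy
  have h1 := repF_mop hF hdet (h.mul h')
  rw [prodSl_mul hdet, prodSl_mul hdet] at h1
  have h2 := (((repF_mop hF hdet h).mul (repF_mop hF hdet h')).smul (dc_ne_zero hdet)).congrW
    (l := (Fintype.card ι : ℤ) * (k + k')) (by ring)
  exact h1.unique h2

theorem mop_ne_zero (hF : Fam (GG N) (GG N') rep) (hdet : ∀ x, 0 < (rep x).det) (hx : x ∈ MFun N)
    (hx0 : x ≠ 0) : mop N rep x ≠ 0 := by
  obtain ⟨k, f, g, h⟩ := hx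
  intro h0
  have h1 := (repF_mop hF hdet h).eq
  rw [h0, zero_mul, eq_comm, ql_eq_zero (isMF_prodSl hF hdet h.mf).qgN] at h1
  exact prodSl_ne_zero h.mf.holo (h.f_ne hx0) h1

theorem mop_one (hF : Fam (GG N) (GG N') rep) (hdet : ∀ x, 0 < (rep x).det) :
    mop N rep 1 = 1 := by
  have h1 := mop_mul hF hdet (one_mem (MFun N)) (one_mem (MFun N))
  rw [mul_one] at h1
  have h2 := mop_ne_zero hF hdet (one_mem (MFun N)) one_ne_zero
  exact (mul_left_cancel₀ h2 (by rw [mul_one]; exact h1)).symm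

theorem mop_pow (hF : Fam (GG N) (GG N') rep) (hdet : ∀ x, 0 < (rep x).det) (hx : x ∈ MFun N)
    (n : ℕ) : mop N rep (x ^ n) = mop N rep x ^ n := by
  induction n with
  | zero => rw [pow_zero, pow_zero, mop_one hF hdet]
  | succ n ih => rw [pow_succ, mop_mul hF hdet (pow_mem hx n) hx, ih, pow_succ]

theorem mop_inv (hF : Fam (GG N) (GG N') rep) (hdet : ∀ x, 0 < (rep x).det) (hx : x ∈ MFun N)
    (hx0 : x ≠ 0) : mop N rep x⁻¹ = (mop N rep x)⁻¹ := by
  have h1 := mop_mul hF hdet hx (inv_mem hx)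
  rw [mul_inv_cancel₀ hx0, mop_one hF hdet] at h1
  exact eq_inv_of_mul_eq_one_right h1.symm

variable {m : ℕ} [NeZero m] {φ : Additive (G0 N) →+ ZMod m}

lemma ech_sum (s : Finset ι) (a : ι → ZMod m) : ech (∑ x ∈ s, a x) = ∏ x ∈ s, ech (a x) := by
  classical
  induction s using Finset.induction_on with
  | empty => simp [ech_zero]
  | insert i s hi ih => rw [Finset.sum_insert hi, Finset.prod_insert hi, ech_add, ih]

/-- The multiplicative operator on Kummer classes. -/
theorem repU_mop (hF : Fam (GG N) (GG N') rep) (hdet : ∀ x, 0 < (rep x).det)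
    (h : RepU N x φ k u g) :
    RepU N' (mop N rep x) (hF.op (ZMod m) φ) ((Fintype.card ι : ℤ) * k) (prodSl k rep u)
      (prodSl k rep g) where
  hu := hb_prodSl h.hu
  u0 := prodSl_ne_zero h.hu.holo h.u0
  hs γ := by
    rw [prodSl_slash_of_tr hdet (hF.tr_elt γ) (c := fun δ => ech (φ (Additive.ofMul δ)))
      (fun δ => h.hs δ), ← ech_sum]
    rfl
  hg := isMF_prodSl hF hdet h.hg
  g0 := prodSl_ne_zero h.hg.holo h.g0
  eq := by
    obtain ⟨c, hc, hcp⟩ := prodSl_pow (k := k) hdet m (NeZero.pos m)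
    have h1 := (repF_mop hF hdet h.repF).eq
    have h2 : prodSl k rep g ^ m = c⁻¹ • prodSl (m * k) rep (g ^ m) := by
      rw [hcp, smul_smul, inv_mul_cancel₀ hc, one_smul]
    have h3 : prodSl k rep u ^ m = c⁻¹ • prodSl (m * k) rep (u ^ m) := by
      rw [hcp, smul_smul, inv_mul_cancel₀ hc, one_smul]
    rw [← ql_pow (isMF_prodSl hF hdet h.hg).qgN, h2, h3,
      ql_smul _ (isMF_prodSl hF hdet (h.hg.pow m)).qgN, ql_smul _ (isMF_prodSl hF hdet h.pow_mf).qgN,
      ← h1]
    ring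

/-- **The multiplicative operator represents the additive one.** -/
theorem rep_mop (hF : Fam (GG N) (GG N') rep) (hdet : ∀ x, 0 < (rep x).det)
    (h : Rep N x φ) : Rep N' (mop N rep x) (hF.op (ZMod m) φ) := by
  obtain ⟨k, u, g, h⟩ := h
  exact ⟨_, _, _, repU_mop hF hdet h⟩

end

end

end Fermat.Agent.ALCoh
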