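import Fermat.Agent.ALCoh.Mult

/-!
# Explicit multiplicative operators
-/

set_option autoImplicit false
set_option linter.unusedSectionVars false

open UpperHalfPlane ModularForm Complex Matrix.SpecialLinearGroup
open scoped MatrixGroups Manifold
open Fermat.Agent.AL Fermat.Agent.Kum Fermat.Agent.MFLib Fermat.Agent.HeckeProd ModularCurve

namespace Fermat.Agent.ALCoh

noncomputable section

variable {N N' N'' : ℕ} {ι κ : Type*} [Fintype ι] [Fintype κ] {rep : ι → M2} {rep' : κ → M2}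
  {k l : ℤ} {f g u v : ℍ → ℂ} {B : M2} {x y : LaurentSeries ℂ}

/-- comparison of operators -/
theorem mop_eq_of (hF : Fam (GG N) (GG N') rep) (hdet : ∀ x, 0 < (rep x).det)
    (hF' : Fam (GG N) (GG N'') rep') (hdet' : ∀ x, 0 < (rep' x).det) {C : ℤ → ℂ}
    (hC : ∀ k, C k ≠ 0)
    (h : ∀ k f, IsMF (G0 N) k f → prodSl k rep f = C k • prodSl k rep' f) (hx : x ∈ MFun N) :
    mop N rep x = mop N rep' x := by
  obtain ⟨k, f, g, hr⟩ := hx
  have h1 := (repF_mop hF hdet hr).eq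
  have h2 := (repF_mop hF' hdet' hr).eq
  have q1 := (isMF_prodSl hF' hdet' hr.mg).qgN
  have q2 := (isMF_prodSl hF' hdet' hr.mf).qgN
  have h3 : ql (prodSl k rep' g) ≠ 0 := by
    rw [ne_eq, ql_eq_zero q1]
    exact prodSl_ne_zero hr.mg.holo hr.g0
  have hCk : (HahnSeries.C (C k) : LaurentSeries ℂ) ≠ 0 := by
    rw [ne_eq, map_eq_zero_iff _ HahnSeries.C_injective]
    exact hC k
  rw [h k g hr.mg, h k f hr.mf, ql_smul _ q1, ql_smul _ q2] at h1
  refine mul_right_cancel₀ (mul_ne_zero hCk h3) ?_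
  rw [h1, ← h2]
  ring

/-- explicit form of operators -/
theorem mop_eq_of_ql (hF : Fam (GG N) (GG N') rep) (hdet : ∀ x, 0 < (rep x).det)
    {C : ℤ → ℂ} {Φ : LaurentSeries ℂ → LaurentSeries ℂ}
    (hΦ : ∀ a b, Φ (a * b) = Φ a * Φ b)
    (h : ∀ k f, IsMF (G0 N) k f → ql (prodSl k rep f) = HahnSeries.C (C k) * Φ (ql f))
    (hx : x ∈ MFun N) : mop N rep x = Φ x := by
  obtain ⟨k, f, g, hr⟩ := hx
  have h1 := (repF_mop hF hdet hr).eq
  have h3 : ql (prodSl k rep g) ≠ 0 := by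
    rw [ne_eq, ql_eq_zero (isMF_prodSl hF hdet hr.mg).qgN]
    exact prodSl_ne_zero hr.mg.holo hr.g0
  refine mul_right_cancel₀ h3 ?_
  rw [h1, h k f hr.mf, h k g hr.mg, ← hr.eq, hΦ]
  ring

lemma sl_zsmul {c : ℤ} (hc : c ≠ 0) (hB : 0 < B.det) (f : ℍ → ℂ) :
    sl k (c • B) f = (c : ℂ) ^ (k - 2) • sl k B f := by
  have h1 : (!![c, 0; 0, c] : M2).det ≠ 0 := by simp [Matrix.det_fin_two_of, hc]
  rw [← smul_eq_scalar, sl_mul h1 hB.ne', sl_scalar hc, sl_smul hB]

/-- invariance under change of representatives -/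
theorem mop_congr (hF : Fam (GG N) (GG N') rep) (hdet : ∀ x, 0 < (rep x).det)
    (hF' : Fam (GG N) (GG N'') rep') (hdet' : ∀ x, 0 < (rep' x).det) (e : ι ≃ κ) {c c' : ℤ}
    (hc : c ≠ 0) (hc' : c' ≠ 0) (he : ∀ x, ∃ δ : GG N,
      c • rep x = c' • (((δ : SL(2, ℤ)) : M2) * rep' (e x))) (hx : x ∈ MFun N) :
    mop N rep x = mop N rep' x := by
  have hcC : (c : ℂ) ≠ 0 := by exact_mod_cast hc
  have hcC' : (c' : ℂ) ≠ 0 := by exact_mod_cast hc'
  refine mop_eq_of hF hdet hF' hdet'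
    (C := fun k => ((c' : ℂ) ^ (k - 2) * ((c : ℂ) ^ (k - 2))⁻¹) ^ (Fintype.card ι))
    (fun k => pow_ne_zero _ (mul_ne_zero (zpow_ne_zero _ hcC') (inv_ne_zero (zpow_ne_zero _ hcC))))
    (fun k f hf => ?_) hx
  have key : ∀ x, sl k (rep x) f =
      ((c' : ℂ) ^ (k - 2) * ((c : ℂ) ^ (k - 2))⁻¹) • sl k (rep' (e x)) f := by
    intro x
    obtain ⟨δ, hδ⟩ := he x
    have h1 := sl_zsmul (k := k) hc (hdet x) f
    have hd : 0 < (((δ : SL(2, ℤ)) : M2) * rep' (e x)).det := by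
      rw [Matrix.det_mul, det_coe', one_mul]; exact hdet' _
    have h2 := sl_zsmul (k := k) hc' hd f
    rw [← hδ, h1, sl_mul (by rw [det_coe']; exact one_ne_zero) (hdet' _).ne', sl_SL,
      hf.slash _ δ.2] at h2
    have h3 := congrArg (fun F => ((c : ℂ) ^ (k - 2))⁻¹ • F) h2
    simp only [smul_smul] at h3
    rw [inv_mul_cancel₀ (zpow_ne_zero _ hcC), one_smul] at h3
    rw [h3, mul_comm]
  rw [prodSl, prodSl, Finset.prod_congr rfl fun x _ => key x, ← Equiv.prod_comp e]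
  funext τ
  simp only [Finset.prod_apply, Pi.smul_apply, smul_eq_mul, Finset.prod_mul_distrib,
    Finset.prod_const, Finset.card_univ]
  rw [mul_pow]

lemma sl_zero_one (hB : 0 < B.det) : sl 0 B (1 : ℍ → ℂ) = ((B.det : ℂ))⁻¹ • (1 : ℍ → ℂ) := by
  have hBC : (B.det : ℂ) ≠ 0 := by exact_mod_cast hB.ne'
  have h1 := sl_mulf (k := 0) (l := 0) (f := (1 : ℍ → ℂ)) (g := (1 : ℍ → ℂ)) hB
  rw [mul_one, add_zero] at h1
  have h2 : sl 0 B (1 : ℍ → ℂ) ≠ 0 := HeckeProd.slash_ne_zero one_ne_zero (toGL B)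
  have hm : MDiff (sl 0 B (1 : ℍ → ℂ)) :=
    (show MDiff (1 : ℍ → ℂ) from fun _ => mdifferentiableAt_const).slash 0 (toGL B)
  have h3 : sl 0 B (1 : ℍ → ℂ) * (sl 0 B (1 : ℍ → ℂ) - ((B.det : ℂ))⁻¹ • (1 : ℍ → ℂ)) = 0 := by
    have h4 : sl 0 B (1 : ℍ → ℂ) * sl 0 B (1 : ℍ → ℂ) = ((B.det : ℂ))⁻¹ • sl 0 B (1 : ℍ → ℂ) := by
      conv_rhs => rw [h1]
      rw [smul_smul, inv_mul_cancel₀ hBC, one_smul]
    rw [mul_sub, h4, mul_smul_comm, mul_one, sub_self]
  rcases (UpperHalfPlane.mul_eq_zero_iff hm (hm.sub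
    ((show MDiff (1 : ℍ → ℂ) from fun _ => mdifferentiableAt_const).const_smul _))).mp h3 with h | h
  · exact absurd h h2
  · exact sub_eq_zero.mp h

lemma sl_prod (hB : 0 < B.det) (s : Finset ι) (F : ι → ℍ → ℂ) :
    sl ((s.card : ℤ) * k) B (∏ x ∈ s, F x) =
      ((B.det : ℂ)) ^ ((s.card : ℤ) - 1) • ∏ x ∈ s, sl k B (F x) := by
  classical
  have hBC : (B.det : ℂ) ≠ 0 := by exact_mod_cast hB.ne'
  induction s using Finset.induction_on with
  | empty => simpa using sl_zero_one hB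
  | insert i s hi ih =>
    rw [Finset.prod_insert hi, Finset.prod_insert hi, Finset.card_insert_of_notMem hi]
    have e : ((s.card + 1 : ℕ) : ℤ) * k = k + s.card * k := by push_cast; ring
    rw [e, sl_mulf hB, ih, mul_smul_comm, smul_smul]
    congr 1
    rw [← zpow_one_add₀ hBC]
    congr 1
    push_cast
    ring

/-- composition -/
theorem mop_mop (hF : Fam (GG N) (GG N') rep) (hdet : ∀ x, 0 < (rep x).det)
    (hF' : Fam (GG N') (GG N'') rep') (hdet' : ∀ x, 0 < (rep' x).det) (hx : x ∈ MFun N) :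
    mop N' rep' (mop N rep x) = mop N (fun z : ι × κ => rep z.1 * rep' z.2) x := by
  obtain ⟨k, f, g, h⟩ := hx
  have hdd : ∀ z : ι × κ, 0 < (rep z.1 * rep' z.2).det := fun z => by
    rw [Matrix.det_mul]; exact mul_pos (hdet _) (hdet' _)
  have h1 := (repF_mop hF' hdet' (repF_mop hF hdet h)).eq
  have h2 := (repF_mop (hF.mul hF') hdd h).eq
  -- comparison
  have key : ∀ f : ℍ → ℂ, prodSl ((Fintype.card ι : ℤ) * k) rep' (prodSl k rep f) =
      (∏ y, (((rep' y).det : ℂ)) ^ ((Fintype.card ι : ℤ) - 1)) •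
        prodSl k (fun z : ι × κ => rep z.1 * rep' z.2) f := by
    intro f
    rw [prodSl, prodSl, prodSl, Fintype.prod_prod_type_right]
    have h3 : ∀ y : κ, sl ((Fintype.card ι : ℤ) * k) (rep' y) (∏ x, sl k (rep x) f) =
        (((rep' y).det : ℂ)) ^ ((Fintype.card ι : ℤ) - 1) • ∏ x, sl k (rep x * rep' y) f := by
      intro y
      have h4 := sl_prod (k := k) (hdet' y) (Finset.univ : Finset ι) (fun x => sl k (rep x) f)
      rw [Finset.card_univ] at h4
      rw [h4]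
      congr 1
      exact Finset.prod_congr rfl fun x _ => (sl_mul (hdet x).ne' (hdet' y).ne').symm
    rw [Finset.prod_congr rfl fun y _ => h3 y]
    funext τ
    simp only [Finset.prod_apply, Pi.smul_apply, smul_eq_mul, Finset.prod_mul_distrib]
  set c : ℂ := ∏ y, (((rep' y).det : ℂ)) ^ ((Fintype.card ι : ℤ) - 1) with hc
  have hc0 : c ≠ 0 := by
    rw [hc, Finset.prod_ne_zero_iff]
    intro y _
    exact zpow_ne_zero _ (by exact_mod_cast (hdet' y).ne')
  have q1 := (isMF_prodSl (hF.mul hF') hdd h.mg).qgN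
  have q2 := (isMF_prodSl (hF.mul hF') hdd h.mf).qgN
  have h5 : ql (prodSl k (fun z : ι × κ => rep z.1 * rep' z.2) g) ≠ 0 := by
    rw [ne_eq, ql_eq_zero q1]
    exact prodSl_ne_zero h.mg.holo h.g0
  have hcC : (HahnSeries.C c : LaurentSeries ℂ) ≠ 0 := by
    rw [ne_eq, map_eq_zero_iff _ HahnSeries.C_injective]
    exact hc0
  rw [key, key, ql_smul _ q1, ql_smul _ q2] at h1
  refine mul_right_cancel₀ (mul_ne_zero hcC h5) ?_
  rw [h1, ← h2]
  ring

/-- disjoint unions -/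
theorem mop_option {r : Option ι → M2} (hF : Fam (GG N) (GG N') r) (hdet : ∀ x, 0 < (r x).det)
    {B : M2} (hB0 : r none = B) {r' : ι → M2} (hr' : ∀ x, r (some x) = r' x)
    (h1 : Fam (GG N) (GG N'') (fun _ : Unit => B)) (h2 : Fam (GG N) (GG N'') r')
    (hx : x ∈ MFun N) :
    mop N r x = mop N (fun _ : Unit => B) x * mop N r' x := by
  obtain ⟨k, f, g, h⟩ := hx
  have hd1 : ∀ _ : Unit, 0 < B.det := fun _ => hB0 ▸ hdet none
  have hd2 : ∀ x, 0 < (r' x).det := fun x => hr' x ▸ hdet (some x)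
  have e0 := (repF_mop hF hdet h).eq
  have e1 := (repF_mop h1 hd1 h).eq
  have e2 := (repF_mop h2 hd2 h).eq
  have key : ∀ f : ℍ → ℂ, prodSl k r f = prodSl k (fun _ : Unit => B) f * prodSl k r' f := by
    intro f
    rw [prodSl, prodSl, prodSl, Fintype.prod_option, hB0]
    simp only [hr', Finset.univ_unique, Finset.prod_singleton]
  have q1 := (isMF_prodSl h1 hd1 h.mg).qgN
  have q2 := (isMF_prodSl h2 hd2 h.mg).qgN
  have q3 := (isMF_prodSl h1 hd1 h.mf).qgN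
  have q4 := (isMF_prodSl h2 hd2 h.mf).qgN
  have n1 : ql (prodSl k (fun _ : Unit => B) g) ≠ 0 := by
    rw [ne_eq, ql_eq_zero q1]
    exact prodSl_ne_zero h.mg.holo h.g0
  have n2 : ql (prodSl k r' g) ≠ 0 := by
    rw [ne_eq, ql_eq_zero q2]
    exact prodSl_ne_zero h.mg.holo h.g0
  rw [key, key, ql_mul q1 q2, ql_mul q3 q4, ← e1, ← e2] at e0
  refine mul_right_cancel₀ (mul_ne_zero n1 n2) ?_
  rw [e0]
  ring

/-- additivity for single matrices -/
theorem mop_add (hF : Fam (GG N) (GG N') (fun _ : Unit => B)) (hB : 0 < B.det) (hx : x ∈ MFun N)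
    (hy : y ∈ MFun N) : mop N (fun _ : Unit => B) (x + y) =
      mop N (fun _ : Unit => B) x + mop N (fun _ : Unit => B) y := by
  obtain ⟨k, f, g, h⟩ := hx
  obtain ⟨k', f', g', h'⟩ := hy
  have hd1 : ∀ _ : Unit, 0 < B.det := fun _ => hB
  have e0 := (repF_mop hF hd1 (h.add h')).eq
  have e1 := repF_mop hF hd1 h
  have e2 := repF_mop hF hd1 h'
  have e3 := (e1.add e2).eq
  have key : ∀ (k : ℤ) (f : ℍ → ℂ), prodSl k (fun _ : Unit => B) f = sl k B f := by
    intro k f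
    rw [prodSl, Finset.univ_unique, Finset.prod_singleton]
  have q1 := e1.mg.qgN.mul e2.mg.qgN
  have q2 := (e1.mf.qgN.mul e2.mg.qgN).add (e1.mg.qgN.mul e2.mf.qgN)
  have n1 : ql (prodSl k (fun _ : Unit => B) g * prodSl k' (fun _ : Unit => B) g') ≠ 0 := by
    rw [ne_eq, ql_eq_zero q1]
    exact Kum.mul_ne_zero' e1.mg.holo e2.mg.holo e1.g0 e2.g0
  simp only [key] at e0 e3 q1 q2 n1
  have hBC : (HahnSeries.C ((B.det : ℤ) : ℂ) : LaurentSeries ℂ) ≠ 0 := by
    rw [ne_eq, map_eq_zero_iff _ HahnSeries.C_injective]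
    exact_mod_cast hB.ne'
  rw [sl_mulf hB, sl_add, sl_mulf hB, sl_mulf hB, ← smul_add, ql_smul _ q1, ql_smul _ q2] at e0
  refine mul_right_cancel₀ (mul_ne_zero hBC n1) ?_
  rw [e0, ← e3]
  ring

section explicit

variable {M q Q m : ℕ}

/-- restriction -/
theorem mop_res (hMN : M ∣ N) (hx : x ∈ MFun M) : mop M (fun _ : Unit => (1 : M2)) x = x := by
  refine mop_eq_of_ql (famRes hMN) (fun _ => by simp) (C := fun _ => 1) (Φ := fun x => x)
    (fun _ _ => rfl) (fun k f hf => ?_) hx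
  rw [prodSl, Finset.univ_unique, Finset.prod_singleton, sl_one, map_one, one_mul]

/-- second degeneracy map -/
theorem mop_resq [NeZero q] (hMN : M * q ∣ N) (hx : x ∈ MFun M) :
    mop M (fun _ : Unit => dg q) x = qExpand ℂ q x := by
  have hq : q ≠ 0 := NeZero.ne q
  refine mop_eq_of_ql (famResq hq hMN) (fun _ => ?_) (C := fun k => (q : ℂ) ^ (k - 1))
    (Φ := fun x => qExpand ℂ q x) (fun a b => map_mul _ a b) (fun k f hf => ?_) hx
  · simpa [Matrix.det_fin_two_of] using Nat.pos_of_ne_zero hq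
  · have h1 : prodSl k (fun _ : Unit => dg q) f = (q : ℂ) ^ (k - 1) • dil q f := by
      rw [prodSl, Finset.univ_unique, Finset.prod_singleton, sl_def,
        ← heckeDiagMatrix_eq_toGL hq]
      funext τ
      rw [slash_heckeDiagMatrix_apply k hq]
      rfl
    rw [h1, ql_smul _ (qg_dil hf.qgN), ql_dil hf.qgN]

lemma prod_fin_eq [NeZero q] (F : ℕ → ℂ) : ∏ j : Fin q, F j = ∏ x : ZMod q, F x.val := by
  obtain ⟨n, rfl⟩ := Nat.exists_eq_succ_of_ne_zero (NeZero.ne q)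
  rfl

lemma prodSl_U [NeZero q] (f : ℍ → ℂ) :
    prodSl k (fun x : Fin q => dl q (some x)) f = (((q : ℂ))⁻¹) ^ q • nrm q f := by
  have hq : q ≠ 0 := NeZero.ne q
  funext τ
  rw [prodSl, Finset.prod_apply, Pi.smul_apply, smul_eq_mul, nrm]
  have h1 : ∀ j : Fin q, (sl k (dl q (some j)) f) τ = ((q : ℂ))⁻¹ * f (heckeMatrix q j • τ) := by
    intro j
    rw [sl_def]
    change (f ∣[k] toGL !![1, ((j : ℕ) : ℤ); 0, (q : ℤ)]) τ = _
    rw [← heckeMatrix_eq_toGL hq, slash_heckeMatrix_apply k hq]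
  rw [Finset.prod_congr rfl fun j _ => h1 j, Finset.prod_mul_distrib, Finset.prod_const,
    Finset.card_univ, Fintype.card_fin, prod_fin_eq (fun j => f (heckeMatrix q j • τ))]

/-- The norm operator. -/
theorem mop_U [NeZero q] (hF : Fam (GG N) (GG N') (fun x : Fin q => dl q (some x)))
    {ζ : ℂˣ} (hζ : IsPrimitiveRoot ζ q) (hx : x ∈ MFun N) :
    mop N (fun x : Fin q => dl q (some x)) x = NN q ζ x := by
  have hq : q ≠ 0 := NeZero.ne q
  refine mop_eq_of_ql hF (fun _ => by rw [det_dl]; exact_mod_cast Nat.pos_of_ne_zero hq)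
    (C := fun k => (((q : ℂ))⁻¹) ^ q)
    (Φ := fun x => NN q ζ x) (fun a b => NN_mul hζ a b) (fun k f hf => ?_) hx
  rw [prodSl_U, ql_smul _ (qg_nrm hf.qgN), ql_nrm hf.qgN, NN_indep zt_primitive hζ]

/-- `NN` lowers the level if `q ∣ M`. -/
theorem NN_mem_MFun (hq : q.Prime) (hqM : q ∣ M) [NeZero q]
    {ζ : ℂˣ} (hζ : IsPrimitiveRoot ζ q) (hx : x ∈ MFun (M * q)) : NN q ζ x ∈ MFun M := by
  rw [← mop_U (famUlow hq hqM) hζ hx]
  exact mop_mem (famUlow hq hqM) (fun _ => by rw [det_dl]; exact_mod_cast hq.pos) hx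

/-- `NN` preserves the level if `q ∣ N`. -/
theorem NN_mem_MFun' (hq : q.Prime) (hqN : q ∣ N) [NeZero q]
    {ζ : ℂˣ} (hζ : IsPrimitiveRoot ζ q) (hx : x ∈ MFun N) : NN q ζ x ∈ MFun N := by
  rw [← mop_U (famU hq hqN) hζ hx]
  exact mop_mem (famU hq hqN) (fun _ => by rw [det_dl]; exact_mod_cast hq.pos) hx

variable [NeZero m] {φ : Additive (G0 N) →+ ZMod m}

/-- `NN` represents `U_q`. -/
theorem rep_NN (hq : q.Prime) (hqN : q ∣ N) [NeZero q] {ζ : ℂˣ} (hζ : IsPrimitiveRoot ζ q)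
    (h : Rep N x φ) : Rep N (NN q ζ x) ((famU hq hqN).op (ZMod m) φ) := by
  rw [← mop_U (famU hq hqN) hζ h.mem]
  exact rep_mop _ (fun _ => by rw [det_dl]; exact_mod_cast hq.pos) h

/-- `NN` represents the level lowering `U_q`. -/
theorem rep_NN_low (hq : q.Prime) (hqM : q ∣ M) [NeZero q] {ζ : ℂˣ} (hζ : IsPrimitiveRoot ζ q)
    {φ : Additive (G0 (M * q)) →+ ZMod m} (h : Rep (M * q) x φ) :
    Rep M (NN q ζ x) ((famUlow hq hqM).op (ZMod m) φ) := by
  rw [← mop_U (famUlow hq hqM) hζ h.mem]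
  exact rep_mop _ (fun _ => by rw [det_dl]; exact_mod_cast hq.pos) h

/-- restriction of representations -/
theorem rep_res {φ : Additive (G0 M) →+ ZMod m} (hMN : M ∣ N) (h : Rep M x φ) :
    Rep N x ((famRes hMN).op (ZMod m) φ) := by
  have h1 := rep_mop (famRes hMN) (fun _ => by simp) h
  rwa [mop_res hMN h.mem] at h1

/-- second degeneracy map on representations -/
theorem rep_resq {φ : Additive (G0 M) →+ ZMod m} [NeZero q] (hMN : M * q ∣ N) (h : Rep M x φ) :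
    Rep N (qExpand ℂ q x) ((famResq (NeZero.ne q) hMN).op (ZMod m) φ) := by
  have h1 := rep_mop (famResq (NeZero.ne q) hMN)
    (fun _ => by simpa [Matrix.det_fin_two_of] using Nat.pos_of_ne_zero (NeZero.ne q)) h
  rwa [mop_resq hMN h.mem] at h1

/-- `MFun M ⊆ MFun N` -/
theorem MFun_mono (hMN : M ∣ N) (hx : x ∈ MFun M) : x ∈ MFun N := by
  rw [← mop_res hMN hx]
  exact mop_mem (famRes hMN) (fun _ => by simp) hx

/-- `x(q^q) ∈ MFun N` -/
theorem qExpand_mem_MFun [NeZero q] (hMN : M * q ∣ N) (hx : x ∈ MFun M) :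
    qExpand ℂ q x ∈ MFun N := by
  rw [← mop_resq hMN hx]
  exact mop_mem (famResq (NeZero.ne q) hMN)
    (fun _ => by simpa [Matrix.det_fin_two_of] using Nat.pos_of_ne_zero (NeZero.ne q)) hx

end explicit

section W

variable {M q Q m : ℕ} [NeZero N]

lemma det_wMat_pos (hN : Q ∣ N) (hco : Q.Coprime (N / Q)) : 0 < (wMat hN hco).det :=
  det_WS_pos (ne_zero_of_dvd hN) (wMat_mem hN hco)

/-- The Atkin–Lehner automorphism of the field of modular functions, as a function. -/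
def wx (hN : Q ∣ N) (hco : Q.Coprime (N / Q)) (x : LaurentSeries ℂ) : LaurentSeries ℂ :=
  mop N (fun _ : Unit => wMat hN hco) x

theorem wx_mem (hN : Q ∣ N) (hco : Q.Coprime (N / Q)) (hx : x ∈ MFun N) :
    wx hN hco x ∈ MFun N :=
  mop_mem (famW hN (ne_zero_of_dvd hN) (wMat_mem hN hco)) (fun _ => det_wMat_pos hN hco) hx

/-- independence of the matrix -/
theorem wx_eq (hN : Q ∣ N) (hco : Q.Coprime (N / Q)) (hB : B ∈ WS N Q) (hx : x ∈ MFun N) :
    wx hN hco x = mop N (fun _ : Unit => B) x := by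
  obtain ⟨γ, h1, h2, h3⟩ := WS_mul_adj hN (wMat_mem hN hco) hB (ne_zero_of_dvd hN)
  exact mop_congr (famW hN (ne_zero_of_dvd hN) (wMat_mem hN hco)) (fun _ => det_wMat_pos hN hco)
    (famW hN (ne_zero_of_dvd hN) hB) (fun _ => det_WS_pos (ne_zero_of_dvd hN) hB) (Equiv.refl _)
    (c := 1) (c' := 1) one_ne_zero one_ne_zero (fun _ => ⟨mkG γ h1 h2, by
      rw [one_smul, one_smul, coe_mkG]; exact h3⟩) hx

/-- involution -/
theorem wx_wx (hN : Q ∣ N) (hco : Q.Coprime (N / Q)) (hx : x ∈ MFun N) :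
    wx hN hco (wx hN hco x) = x := by
  have hQ := ne_zero_of_dvd hN
  have hQZ : (Q : ℤ) ≠ 0 := by exact_mod_cast hQ
  have hA := wMat_mem hN hco
  rw [wx_eq hN hco (adj_mem_WS hA) (wx_mem hN hco hx), wx,
    mop_mop (famW hN hQ hA) (fun _ => det_wMat_pos hN hco) (famW hN hQ (adj_mem_WS hA))
      (fun _ => det_WS_pos hQ (adj_mem_WS hA)) hx]
  conv_rhs => rw [← mop_res (N := N) dvd_rfl hx]
  refine mop_congr ((famW hN hQ hA).mul (famW hN hQ (adj_mem_WS hA)))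
    (fun z => ?_) (famRes (N := N) dvd_rfl) (fun _ => by simp) (Equiv.prodUnique Unit Unit)
    (c := 1) (c' := Q) one_ne_zero hQZ (fun z => ⟨1, ?_⟩) hx
  · rw [Matrix.det_mul]
    exact mul_pos (det_WS_pos hQ hA) (det_WS_pos hQ (adj_mem_WS hA))
  · rw [one_smul, Matrix.mul_adjugate, hA.1]
    simp

/-- The Atkin–Lehner automorphism of the field of modular functions. -/
def wRing (hN : Q ∣ N) (hco : Q.Coprime (N / Q)) : MFun N →+* MFun N where
  toFun x := ⟨wx hN hco x, wx_mem hN hco x.2⟩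
  map_one' := Subtype.ext (mop_one (famW hN (ne_zero_of_dvd hN) (wMat_mem hN hco))
    (fun _ => det_wMat_pos hN hco))
  map_mul' x y := Subtype.ext (mop_mul (famW hN (ne_zero_of_dvd hN) (wMat_mem hN hco))
    (fun _ => det_wMat_pos hN hco) x.2 y.2)
  map_zero' := Subtype.ext (by
    have h1 := mop_add (famW hN (ne_zero_of_dvd hN) (wMat_mem hN hco)) (det_wMat_pos hN hco)
      (zero_mem (MFun N)) (zero_mem (MFun N))
    rw [add_zero] at h1
    exact left_eq_add.mp h1)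
  map_add' x y := Subtype.ext (mop_add (famW hN (ne_zero_of_dvd hN) (wMat_mem hN hco))
    (det_wMat_pos hN hco) x.2 y.2)

@[simp] theorem coe_wRing (hN : Q ∣ N) (hco : Q.Coprime (N / Q)) (x : MFun N) :
    (wRing hN hco x : LaurentSeries ℂ) = wx hN hco x := rfl

/-- Atkin–Lehner automorphisms fix constants. -/
theorem wx_C (hN : Q ∣ N) (hco : Q.Coprime (N / Q)) (c : ℂ) :
    wx hN hco (HahnSeries.C c) = HahnSeries.C c := by
  have h1 := (repF_mop (famW hN (ne_zero_of_dvd hN) (wMat_mem hN hco))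
    (fun _ => det_wMat_pos hN hco) (RepF.const (N := N) c)).eq
  have key : ∀ f : ℍ → ℂ, prodSl 0 (fun _ : Unit => wMat hN hco) f = sl 0 (wMat hN hco) f := by
    intro f
    rw [prodSl, Finset.univ_unique, Finset.prod_singleton]
  have hd := det_wMat_pos hN hco
  rw [key, key, sl_smul hd, sl_zero_one hd, ql_smul _ QG.one,
    ql_smul _ (QG.one.smul _), ql_smul _ QG.one, ql_one] at h1
  have h2 : (HahnSeries.C ((((wMat hN hco).det : ℤ) : ℂ))⁻¹ : LaurentSeries ℂ) * 1 ≠ 0 := by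
    rw [mul_one, ne_eq, map_eq_zero_iff _ HahnSeries.C_injective]
    exact inv_ne_zero (by exact_mod_cast hd.ne')
  exact mul_right_cancel₀ h2 h1

variable [NeZero m] {φ : Additive (G0 N) →+ ZMod m}

/-- Atkin–Lehner operators on Kummer classes -/
theorem rep_wx (hN : Q ∣ N) (hco : Q.Coprime (N / Q)) (h : Rep N x φ) :
    Rep N (wx hN hco x) (wop hN hco (ZMod m) φ) :=
  rep_mop (famW hN (ne_zero_of_dvd hN) (wMat_mem hN hco)) (fun _ => det_wMat_pos hN hco) h

end W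

section exact

variable {M q m : ℕ} [NeZero (M * q)] [NeZero q]

lemma coprime_of_not_dvd (hq : q.Prime) (hqM : ¬ q ∣ M) : q.Coprime (M * q / q) := by
  rw [Nat.mul_div_cancel _ hq.pos]
  exact (Nat.Prime.coprime_iff_not_dvd hq).mpr hqM

/-- `w_q x = x(q^q)` for `x` of level `M`. -/
theorem wx_of_mem (hq : q.Prime) (hqM : ¬ q ∣ M) (hx : x ∈ MFun M) :
    wx (dvd_mul_left q M) (coprime_of_not_dvd hq hqM) x = qExpand ℂ q x := by
  have hco := coprime_of_not_dvd hq hqM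
  have hN := dvd_mul_left q M
  have hQ := hq.ne_zero
  have hqZ : (q : ℤ) ≠ 0 := by exact_mod_cast hQ
  have hA := wMat_mem hN hco
  have hdg : ∀ _ : Unit, 0 < (dg q).det := fun _ => by
    simpa [Matrix.det_fin_two_of] using Nat.pos_of_ne_zero hQ
  have hfR := famRes (N := M * q) (M := M) (dvd_mul_right M q)
  have hfW := famW hN hQ hA
  have e1 := mop_mop hfR (fun _ => by simp) hfW (fun _ => det_wMat_pos hN hco) hx
  rw [mop_res (N := M * q) (dvd_mul_right M q) hx] at e1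
  rw [wx, e1, ← mop_resq (N := M * q) dvd_rfl hx]
  obtain ⟨h1, ⟨a, ha⟩, ⟨c, hc⟩, ⟨d, hd⟩⟩ := id hA
  set B := wMat hN hco with hB
  rw [Matrix.det_fin_two, ha, hc, hd] at h1
  push_cast at hc h1
  refine mop_congr (hfR.mul hfW) (fun z => ?_) (famResq hQ dvd_rfl) hdg
    (Equiv.prodUnique Unit Unit) (c := 1) (c' := 1) one_ne_zero one_ne_zero (fun z =>
    ⟨mkG !![a, B 0 1; M * c, q * d] ?_ ?_, ?_⟩) hx
  · rw [Matrix.one_mul]; exact det_wMat_pos hN hco
  · rw [Matrix.det_fin_two_of]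
    exact mul_left_cancel₀ hqZ (by linear_combination h1)
  · simp
  · rw [coe_mkG, one_smul, one_smul]
    apply mat_ext <;> simp [Matrix.mul_apply, Fin.sum_univ_two]
    · rw [ha]; ring
    · rw [hc]; ring
    · rw [hd]

/-- `w_q (x(q^q)) = x` for `x` of level `M`. -/
theorem wx_qExpand (hq : q.Prime) (hqM : ¬ q ∣ M) (hx : x ∈ MFun M) :
    wx (dvd_mul_left q M) (coprime_of_not_dvd hq hqM) (qExpand ℂ q x) = x := by
  rw [← wx_of_mem hq hqM hx, wx_wx _ _ (MFun_mono (dvd_mul_right M q) hx)]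

variable [NeZero m] {φ : Additive (G0 (M * q)) →+ ZMod m}

/-- **Transfer for `q ‖ N`**. -/
theorem rep_tr (hq : q.Prime) (hqM : ¬ q ∣ M) {ζ : ℂˣ} (hζ : IsPrimitiveRoot ζ q)
    (h : Rep (M * q) x φ) :
    Rep M (x * NN q ζ (wx (dvd_mul_left q M) (coprime_of_not_dvd hq hqM) x))
      (tr (dvd_mul_right M q) (ZMod m) φ) := by
  have hco := coprime_of_not_dvd hq hqM
  have hN := dvd_mul_left q M
  have hQ := hq.ne_zero
  have hqZ : (q : ℤ) ≠ 0 := by exact_mod_cast hQ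
  have hA := wMat_mem hN hco
  obtain ⟨r, hr, hr1, hr2⟩ := exists_reps_W hq hqM hA
  have hdr : ∀ x, 0 < (r x : M2).det := fun x => by rw [det_coe']; exact one_pos
  have hle : GG (M * q) ≤ GG M := fun γ hγ => mem_Gamma0_iff.mpr
    ((Int.natCast_dvd_natCast.mpr (dvd_mul_right M q)).trans (dvd_of_mem hγ))
  have hdl : ∀ x : Fin q, 0 < (dl q (some x)).det := fun _ => by
    rw [det_dl]; exact_mod_cast hq.pos
  have h0 : ∀ x : Fin q, (q : ℤ) • ((r (some x) : SL(2, ℤ)) : M2) =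
      wMat hN hco * dl q (some x) := by
    intro x
    rw [hr2 x, smul_eq_scalar]
  have hWU := (famW hN hQ hA).mul (famU hq hN)
  have h3 : Fam (GG (M * q)) (GG (M * q)) (fun x : Fin q => ((r (some x) : SL(2, ℤ)) : M2)) :=
    hWU.congr (Equiv.uniqueProd (Fin q) Unit).symm (c := q) (c' := 1) hqZ one_ne_zero
      (fun x => ⟨1, by rw [h0]; simp⟩)
  have hm := mop_option (B := 1) (famTr hr) hdr (by rw [hr1]; simp) (fun _ => rfl)
    (Fam.one : Fam (GG (M * q)) (GG (M * q)) _) h3 h.mem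
  have e1 : mop (M * q) (fun _ : Unit => (1 : M2)) x = x := mop_res (N := M * q) dvd_rfl h.mem
  have e2 : mop (M * q) (fun x : Fin q => ((r (some x) : SL(2, ℤ)) : M2)) x =
      NN q ζ (wx hN hco x) := by
    rw [← mop_U (famU hq hN) hζ (wx_mem hN hco h.mem), wx,
      mop_mop (famW hN hQ hA) (fun _ => det_wMat_pos hN hco) (famU hq hN) hdl h.mem]
    refine mop_congr h3 (fun x => hdr _) hWU (fun z => ?_)
      (Equiv.uniqueProd (Fin q) Unit).symm (c := q) (c' := 1) hqZ one_ne_zero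
      (fun x => ⟨1, by rw [h0]; simp⟩) h.mem
    rw [Matrix.det_mul]
    exact mul_pos (det_wMat_pos hN hco) (hdl _)
  rw [e1, e2] at hm
  rw [← hm, tr_eq _ hr]
  exact rep_mop (famTr hr) hdr h

end exact

section low

variable {M q Q m : ℕ} [NeZero M] [NeZero (M * q)] [NeZero q] [NeZero m]
  {φ : Additive (G0 (M * q)) →+ ZMod m}

/-- **Transfer for `q² ∣ N`**: `NN q ζ (w_Q x)` represents `w_{Q/q} (tr φ)`. -/
theorem rep_NN_wx (hq : q.Prime) (hQM : Q ∣ M) (hQ : q ∣ Q) (hco : Q.Coprime (M / Q))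
    (hco' : (Q * q).Coprime (M * q / (Q * q))) {ζ : ℂˣ} (hζ : IsPrimitiveRoot ζ q)
    (h : Rep (M * q) x φ) :
    Rep M (NN q ζ (wx (mul_dvd_mul_right hQM q) hco' x))
      (wop hQM hco (ZMod m) (tr (dvd_mul_right M q) (ZMod m) φ)) := by
  have h1 := rep_NN_low hq (hQ.trans hQM) hζ (rep_wx (mul_dvd_mul_right hQM q) hco' h)
  have h2 := Ulow_W (A := ZMod m) hq hQM hQ (ne_zero_of_dvd hQM)
    (wMat_mem (mul_dvd_mul_right hQM q) hco') (wMat_mem hQM hco) φ
  rw [wop, h2] at h1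
  exact h1

/-- **Transfer for `q² ∣ N`**: `w_{Q/q} (NN q ζ (w_Q x))` represents `tr φ`. -/
theorem rep_tr_low (hq : q.Prime) (hQM : Q ∣ M) (hQ : q ∣ Q) (hco : Q.Coprime (M / Q))
    (hco' : (Q * q).Coprime (M * q / (Q * q))) {ζ : ℂˣ} (hζ : IsPrimitiveRoot ζ q)
    (h : Rep (M * q) x φ) :
    Rep M (wx hQM hco (NN q ζ (wx (mul_dvd_mul_right hQM q) hco' x)))
      (tr (dvd_mul_right M q) (ZMod m) φ) := by
  have h1 := rep_wx hQM hco (rep_NN_wx hq hQM hQ hco hco' hζ h)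
  rwa [wop_wop] at h1

end low

end

end Fermat.Agent.ALCoh
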