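import Fermat.Agent.ALCoh.Fam

/-!
# Hecke, Atkin–Lehner, degeneracy and trace operators on homomorphisms of `Γ₀(N)`
-/

set_option autoImplicit false

open Matrix.SpecialLinearGroup
open scoped MatrixGroups
open Fermat.Agent.AL

namespace Fermat.Agent.ALCoh

noncomputable section

/-- `Γ₀(N)` -/
abbrev GG (N : ℕ) : Subgroup SL(2, ℤ) := CongruenceSubgroup.Gamma0 N

variable {N M Q l q : ℕ} {A : Type*} [AddCommGroup A]

lemma mkSL_mem {B : M2} (h : B.det = 1) (hN : (N : ℤ) ∣ B 1 0) : mkSL B h ∈ GG N :=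
  mem_Gamma0_iff.mpr hN

/-- elements of `Γ₀(N)` from matrices -/
def mkG (B : M2) (h : B.det = 1) (hN : (N : ℤ) ∣ B 1 0) : GG N := ⟨mkSL B h, mkSL_mem h hN⟩

@[simp] lemma coe_mkG (B : M2) (h : B.det = 1) (hN : (N : ℤ) ∣ B 1 0) :
    (((mkG B h hN : GG N) : SL(2, ℤ)) : M2) = B := rfl

lemma det_coe' (γ : SL(2, ℤ)) : (γ : M2).det = 1 := γ.det_coe

lemma dvd_of_mem {γ : SL(2, ℤ)} (hγ : γ ∈ GG N) : (N : ℤ) ∣ γ 1 0 := mem_Gamma0_iff.mp hγ

/-- build a family from injective data -/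
lemma fam_of_choice {ι : Type*} [Finite ι] {Γ Γ' : Subgroup SL(2, ℤ)} {rep : ι → M2}
    (hdet : ∀ x, (rep x).det ≠ 0)
    (h : ∀ γ ∈ Γ', ∀ x, ∃ y, ∃ g : Γ, rep x * (γ : M2) = ((g : SL(2, ℤ)) : M2) * rep y)
    (hinj : ∀ x y, ∀ g : Γ, rep x = ((g : SL(2, ℤ)) : M2) * rep y → x = y) : Fam Γ Γ' rep where
  det := hdet
  tr γ hγ := by
    choose σ g hg using h γ hγ
    have hs : Function.Injective σ := by
      intro x y hxy
      refine hinj x y (g x * (g y)⁻¹) ?_
      refine mul_right_cancel_det (C := (γ : M2)) (by rw [γ.det_coe]; exact one_ne_zero) ?_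
      rw [hg x, Matrix.mul_assoc, hg y, hxy, Subgroup.coe_mul, Matrix.SpecialLinearGroup.coe_mul]
      simp only [Matrix.mul_assoc]
      rw [← Matrix.mul_assoc ((((g y)⁻¹ : Γ) : SL(2, ℤ)) : M2),
        ← Matrix.SpecialLinearGroup.coe_mul, ← Subgroup.coe_mul, inv_mul_cancel]
      simp
    exact ⟨Equiv.ofBijective σ (Finite.injective_iff_bijective.mp hs), g, hg⟩

lemma dl_eq_of (hl : l.Prime) {x y : Option (Fin l)} {B : M2} (h : dl l x = B * dl l y) : x = y :=
  dl_inj_aux hl (D := 1) (A := B)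
    (fun h => (Nat.prime_iff_prime_int.mp hl).not_isUnit (isUnit_of_dvd_one h))
    (by rw [one_smul]; exact h)

/-- The family of the operator `T_ℓ`. -/
theorem famT (hl : l.Prime) (hlN : ¬ l ∣ N) : Fam (GG N) (GG N) (dl l) :=
  fam_of_choice (fun x => det_dl_ne hl.ne_zero x) (fun γ hγ x => by
    obtain ⟨y, B, hB⟩ := exists_dl_mul hl (γ : M2) x
    have hdet : B.det = 1 := by rw [det_eq_of_dl_mul hl.ne_zero hB, γ.det_coe]
    exact ⟨y, mkG B hdet ((dvd_c hB (isCoprime_of_not_dvd hl hlN)).mpr (dvd_of_mem hγ)), hB⟩)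
    (fun x y g h => dl_eq_of hl h)

/-- The family of the operator `U_q` -/
theorem famU (hq : q.Prime) (hqN : q ∣ N) : Fam (GG N) (GG N) (fun x : Fin q => dl q (some x)) :=
  fam_of_choice (fun x => det_dl_ne hq.ne_zero _) (fun γ hγ x => by
    obtain ⟨y, B, hB⟩ := exists_dl_mul_some (M := (γ : M2)) hq (by
        rw [γ.det_coe]
        exact fun h => (Nat.prime_iff_prime_int.mp hq).not_isUnit (isUnit_of_dvd_one h))
      ((Int.natCast_dvd_natCast.mpr hqN).trans (dvd_of_mem hγ)) x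
    have hdet : B.det = 1 := by rw [det_eq_of_dl_mul hq.ne_zero hB, γ.det_coe]
    obtain ⟨-, -, e3, -⟩ := entries hB
    simp [dl] at e3
    exact ⟨y, mkG B hdet (by rw [← e3]; exact Dvd.dvd.mul_left (dvd_of_mem hγ) _), hB⟩)
    (fun x y g h => Option.some_injective _ (dl_eq_of hq h))

/-- The family of the operator `U_q` lowering the level. -/
theorem famUlow (hq : q.Prime) (hqM : q ∣ M) :
    Fam (GG (M * q)) (GG M) (fun x : Fin q => dl q (some x)) :=
  fam_of_choice (fun x => det_dl_ne hq.ne_zero _) (fun γ hγ x => by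
    obtain ⟨y, B, hB⟩ := exists_dl_mul_some (M := (γ : M2)) hq (by
        rw [γ.det_coe]
        exact fun h => (Nat.prime_iff_prime_int.mp hq).not_isUnit (isUnit_of_dvd_one h))
      ((Int.natCast_dvd_natCast.mpr hqM).trans (dvd_of_mem hγ)) x
    have hdet : B.det = 1 := by rw [det_eq_of_dl_mul hq.ne_zero hB, γ.det_coe]
    obtain ⟨-, -, e3, -⟩ := entries hB
    simp [dl] at e3
    exact ⟨y, mkG B hdet (by
      rw [← e3]; push_cast; rw [mul_comm]; exact mul_dvd_mul_left _ (dvd_of_mem hγ)), hB⟩)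
    (fun x y g h => Option.some_injective _ (dl_eq_of hq h))

/-- The Atkin–Lehner family. -/
theorem famW (hN : Q ∣ N) (hQ : Q ≠ 0) {B : M2} (hB : B ∈ WS N Q) :
    Fam (GG N) (GG N) (fun _ : Unit => B) :=
  fam_of_choice (fun _ => det_WS_ne hQ hB) (fun γ hγ _ => by
    obtain ⟨γ', h1, h2, h3⟩ := WS_mul_adj hN
      (WS_mul_mem hN hB (γ := (γ : M2)) γ.det_coe (dvd_of_mem hγ)) hB hQ
    exact ⟨(), mkG γ' h1 h2, h3⟩) (fun _ _ _ _ => rfl)

/-- Restriction -/
theorem famRes (hMN : M ∣ N) : Fam (GG M) (GG N) (fun _ : Unit => (1 : M2)) :=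
  Fam.one.mono (fun γ hγ => mem_Gamma0_iff.mpr
    ((Int.natCast_dvd_natCast.mpr hMN).trans (dvd_of_mem hγ)))

/-- the matrix `diag(q, 1)` -/
abbrev dg (q : ℕ) : M2 := !![(q : ℤ), 0; 0, 1]

/-- Second degeneracy map -/
theorem famResq (hq : q ≠ 0) (hMN : M * q ∣ N) : Fam (GG M) (GG N) (fun _ : Unit => dg q) :=
  fam_of_choice (fun _ => by simpa [Matrix.det_fin_two_of] using hq) (fun γ hγ _ => by
    obtain ⟨c, hc⟩ := (Int.natCast_dvd_natCast.mpr hMN).trans (dvd_of_mem hγ)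
    have hdet := γ.det_coe
    rw [Matrix.det_fin_two, hc] at hdet
    push_cast at hdet hc
    refine ⟨(), mkG !![γ 0 0, q * γ 0 1; M * c, γ 1 1] ?_ ?_, ?_⟩
    · rw [Matrix.det_fin_two_of]; linear_combination hdet
    · simp
    · rw [coe_mkG]
      apply mat_ext <;> simp [Matrix.mul_apply, Fin.sum_univ_two]
      · ring
      · rw [hc]; ring) (fun _ _ _ _ => rfl)

/-- The transfer family. -/
theorem famTr {ι : Type*} [Finite ι] {r : ι → SL(2, ℤ)} (hr : IsReps N M r) :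
    Fam (GG N) (GG M) (fun i => (r i : M2)) :=
  fam_of_choice (fun i => by rw [(r i).det_coe]; exact one_ne_zero) (fun γ hγ i => by
    obtain ⟨j, hj⟩ := hr.surj (r i * γ) ((GG M).mul_mem (hr.mem i) hγ)
    refine ⟨j, ⟨_, hj⟩, ?_⟩
    rw [← Matrix.SpecialLinearGroup.coe_mul, ← Matrix.SpecialLinearGroup.coe_mul,
      inv_mul_cancel_right]) (fun i j g h => hr.inj i j (by
    rw [← Matrix.SpecialLinearGroup.coe_mul] at h
    have h1 : r i = (g : SL(2, ℤ)) * r j := Subtype.ext h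
    rw [h1, mul_inv_cancel_right]
    exact g.2))

/-- Transfers do not depend on representatives. -/
theorem famTr_op_eq {ι κ : Type*} [Fintype ι] [Fintype κ] {r : ι → SL(2, ℤ)} {r' : κ → SL(2, ℤ)}
    (hr : IsReps N M r) (hr' : IsReps N M r') : (famTr hr).op A = (famTr hr').op A := by
  choose σ hσ using fun i => hr'.surj (r i) (hr.mem i)
  choose τ hτ using fun i => hr.surj (r' i) (hr'.mem i)
  have hs : Function.Bijective σ := by
    constructor
    · intro i j hij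
      apply hr.inj
      have h1 := (GG N).mul_mem (hσ i) ((GG N).inv_mem (hσ j))
      rw [hij] at h1
      convert h1 using 1
      group
    · intro k
      refine ⟨τ k, hr'.inj _ _ ?_⟩
      have h1 := (GG N).mul_mem ((GG N).inv_mem (hσ (τ k))) ((GG N).inv_mem (hτ k))
      convert h1 using 1
      group
  refine Fam.op_eq' _ _ (Equiv.ofBijective σ hs) fun i => ⟨⟨_, hσ i⟩, ?_⟩
  rw [Equiv.ofBijective_apply, ← Matrix.SpecialLinearGroup.coe_mul, inv_mul_cancel_right]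

end

end Fermat.Agent.ALCoh
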